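import Fermat.Agent.Mazur.Weil.Pairing
import Fermat.Prelude.Def_ModularCurve_ArithmeticGalois

set_option autoImplicit false
set_option linter.unusedSectionVars false
set_option linter.style.haveILetI false

/-!
# Equivariance of the Weil pairing under semilinear automorphisms
-/

noncomputable section

open AlgebraicCurve WithZero

namespace Fermat.Agent.Mazur.Weil

open scoped Pointwise

section Semi

variable {K F : Type*} [Field K] [Field F] [Algebra K F] [IsAlgClosed K] [RR.FunctionField K F]
  (g : SemilinearAut K F)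

theorem smul_mem_smul_iff (P : Place K F) (f : F) :
    g • f ∈ (g • P).toValuationSubring ↔ f ∈ P.toValuationSubring := by
  rw [SemilinearAut.smul_toValuationSubring]
  exact ValuationSubring.smul_mem_pointwise_smul_iff

theorem ev_smul (P : Place K F) (f : F) :
    ev (g • P) (g • f) = SemilinearAut.baseAut g (ev P f) := by
  by_cases hf : f ∈ P.toValuationSubring
  · have hf' : g • f ∈ (g • P).toValuationSubring := (smul_mem_smul_iff g P f).mpr hf
    rw [ev_eq_iff hf', ← SemilinearAut.smul_algebraMap, ← smul_sub, Fermat.FF.val_lt_one_iff,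
      SemilinearAut.ord_smul]
    rcases (Fermat.FF.val_lt_one_iff P).mp (val_sub_ev_lt_one hf) with h | h
    · left
      rw [h, smul_zero]
    · exact Or.inr h
  · rw [ev, dif_neg (fun h => hf ((smul_mem_smul_iff g P f).mp h)), ev, dif_neg hf, map_zero]

theorem evalDiv_smul (f : F) (D : Divisor K F) :
    evalDiv (g • f) (g • D) = SemilinearAut.baseAut g (evalDiv f D) := by
  classical
  rw [SemilinearAut.divisor_smul_def, evalDiv, evalDiv,
    Finsupp.prod_mapDomain_index_inj (MulAction.injective g), Finsupp.prod, Finsupp.prod, map_prod]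
  exact Finset.prod_congr rfl fun P _ => by rw [ev_smul, map_zpow₀]

theorem smul_nsmul_divisor (n : ℕ) (D : Divisor K F) : g • (n • D) = n • (g • D) :=
  map_nsmul (DistribSMul.toAddMonoidHom (Divisor K F) g) n D

theorem smul_nsmul_pic0 (n : ℕ) (x : Pic0 K F) : g • (n • x) = n • (g • x) :=
  map_nsmul (DistribSMul.toAddMonoidHom (Pic0 K F) g) n x

theorem eq_zero_of_smul_pic0 {x : Pic0 K F} (h : g • x = 0) : x = 0 := by
  rw [← inv_smul_smul g x, h]
  exact smul_zero (A := Pic0 K F) g⁻¹

theorem smul_divOf (f : F) : g • RR.divOf (K := K) f = RR.divOf (g • f) := by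
  ext v
  rw [SemilinearAut.divisor_smul_apply, RR.divOf_apply, RR.divOf_apply,
    ← SemilinearAut.ord_smul g (g⁻¹ • v) f, smul_inv_smul]

variable {n : ℕ} {x y : Pic0 K F}

/-- transport of a representative -/
def Rep.smul (r : Rep n x) : Rep n (g • x) where
  D := SemilinearAut.degZeroSMulHom g r.D
  f := g • r.f
  f_ne := by
    rw [Ne, smul_eq_zero_iff_eq]
    exact r.f_ne
  mk_eq := by rw [← SemilinearAut.pic0_smul_mk, r.mk_eq]
  div_eq := by
    rw [SemilinearAut.coe_degZeroSMulHom, ← smul_nsmul_divisor, r.div_eq, smul_divOf]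

/-- **Equivariance** of the Weil pairing. -/
theorem weil_smul (n : ℕ) (x y : Pic0 K F) :
    weil n (g • x) (g • y) = SemilinearAut.baseAut g (weil n x y) := by
  by_cases h : n • x = 0 ∧ n • y = 0
  · obtain ⟨r, s, hrs⟩ := exists_pair h.1 h.2
    have h' : DisjRep (r.smul g) (s.smul g) := by
      intro P hP
      change (g • (s.D : Divisor K F)) P = 0
      have hP' : (g • (r.D : Divisor K F)) P ≠ 0 := hP
      rw [SemilinearAut.divisor_smul_apply] at hP' ⊢
      exact hrs _ hP'
    rw [weil_eq_val r s hrs, weil_eq_val _ _ h', val, val, map_div₀]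
    congr 1
    · exact evalDiv_smul g r.f _
    · exact evalDiv_smul g s.f _
  · rw [weil_of_not h, weil_of_not, map_one]
    intro h'
    apply h
    constructor
    · exact eq_zero_of_smul_pic0 g (by rw [smul_nsmul_pic0]; exact h'.1)
    · exact eq_zero_of_smul_pic0 g (by rw [smul_nsmul_pic0]; exact h'.2)

end Semi

section Modular

open ModularCurve

/-- Galois equivariance on `J₀(N)`. -/
theorem weil_galois {N : ℕ}
    [RR.FunctionField (AlgebraicClosure ℚ) (modularFunctionFieldBar N)] (n : ℕ)
    (σ : AlgebraicClosure ℚ ≃ₐ[ℚ] AlgebraicClosure ℚ) (x y : JZero N) :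
    weil n (σ • x) (σ • y) = σ (weil n x y) := by
  rw [galois_smul_pic0_def, galois_smul_pic0_def, weil_smul]
  rfl

end Modular

end Fermat.Agent.Mazur.Weil
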