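import Fermat.Agent.Mazur.Weil.Projection
import Fermat.Agent.Mazur.Weil.Equiv
import Fermat.Agent.JRED.AtkinLehnerInput
import Fermat.Agent.JRED.ModularFF

set_option autoImplicit false
set_option linter.unusedSectionVars false
set_option linter.style.haveILetI false

/-!
# Self-adjointness of the Hecke operators `T_ℓ`, `ℓ ∤ N`, for the Weil pairing on `J₀(N)`
-/

noncomputable section

open AlgebraicCurve ModularCurve

namespace Fermat.Agent.Mazur.Weil

open Fermat.Agent.Jan.HeckeNorm Fermat.Agent.DR.S36 Fermat.Agent.Jan.HeckeInputs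

theorem functionField_bar (N : ℕ) [NeZero N] :
    RR.FunctionField (AlgebraicClosure ℚ) (modularFunctionFieldBar N) := by
  haveI := isFF1_modular (AlgebraicClosure ℚ) Fermat.Agent.Jan.DegreeWiring.jAlg N
  exact RR.functionField_of_isFF1 _ _

variable (N : ℕ) [NeZero N] [RR.FunctionField (AlgebraicClosure ℚ) (modularFunctionFieldBar N)]

/-- **`T_ℓ` is self-adjoint** for the Weil pairing, `ℓ ∤ N`. -/
theorem weil_hecke (ℓ : Nat.Primes) (hℓN : ¬ (ℓ : ℕ) ∣ N) {n : ℕ} {x y : JZero N}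
    (hx : n • x = 0) (hy : n • y = 0) :
    weil n (heckeOperatorBar N ℓ x) y = weil n x (heckeOperatorBar N ℓ y) := by
  haveI : NeZero (ℓ : ℕ) := ⟨ℓ.2.ne_zero⟩
  haveI : Fact (ℓ : ℕ).Prime := ⟨ℓ.2⟩
  have hjA := Fermat.Agent.Jan.DegreeWiring.jAlg
  haveI := functionField_bar (N * ℓ)
  haveI := isFF1_modular (AlgebraicClosure ℚ) hjA N
  have hα := heckeAlphaBarIntegral (AlgebraicClosure ℚ) N ℓ hjA
  have hβ := heckeBetaBarIntegral (AlgebraicClosure ℚ) N ℓ hjA
  have hfa := finiteAlong_heckeAlphaBar (AlgebraicClosure ℚ) N ℓ hjA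
  have hfb := finiteAlong_heckeBetaBar (AlgebraicClosure ℚ) N ℓ hjA
  have hFa := Fermat.FF.Rel.fundamentalIdentityAlong
    (heckeAlphaBar (AlgebraicClosure ℚ) N ℓ) hα hfa
  have hFb := Fermat.FF.Rel.fundamentalIdentityAlong
    (heckeBetaBar (AlgebraicClosure ℚ) N ℓ) hβ hfb
  have hNa := Fermat.FF.Rel.normFormulaAlong (heckeAlphaBar (AlgebraicClosure ℚ) N ℓ) hfa
  have hNb := Fermat.FF.Rel.normFormulaAlong (heckeBetaBar (AlgebraicClosure ℚ) N ℓ) hfb
  obtain ⟨w, -, h1, h2⟩ :=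
    Fermat.Agent.JRED.AL.exists_wBar (AlgebraicClosure ℚ) N ℓ hℓN
  have hop : ∀ z : JZero N, heckeOperatorBar N ℓ z =
      Pic0.correspondence (heckeBetaBar (AlgebraicClosure ℚ) N ℓ)
        (heckeAlphaBar (AlgebraicClosure ℚ) N ℓ) hβ hα hFb hfa hNa z := by
    intro z
    rw [heckeOperatorBar_apply, heckeOperatorAlong_eq hα hβ hFb hfa hNa]
    rfl
  rw [hop, hop, weil_correspondence (heckeBetaBar (AlgebraicClosure ℚ) N ℓ) hβ
    (heckeAlphaBar (AlgebraicClosure ℚ) N ℓ) hα hFb hfb hNb hFa hfa hNa hx hy,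
    correspondence_swap (heckeAlphaBar (AlgebraicClosure ℚ) N ℓ) hα
      (heckeBetaBar (AlgebraicClosure ℚ) N ℓ) hβ w h1 h2 hFa hfa hNa hFb hfb hNb]

end Fermat.Agent.Mazur.Weil
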