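import Fermat.Agent.Mazur.Weil.Equiv
import Fermat.Agent.Jan.RelFundamental
import Fermat.Agent.S27D.Divisible
import Mathlib.FieldTheory.KummerExtension

set_option autoImplicit false
set_option linter.unusedSectionVars false
set_option linter.style.haveILetI false

/-!
# Nondegeneracy of the Weil pairing

If `n D = div f`, `u^n = f` in a finite extension `F'` of `F`, and `τ` is an automorphism of
`F'/F` with `τ u = ζ u`, then, `Pic⁰(F')` being `n`-divisible, some `y ∈ Pic⁰(F)[n]` has
`weil n [D] y = ζ`: take a place `P` of `F'`, `P - τ P = n E₂ + div h` and `y = [π_* E₂]`.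
-/

noncomputable section

open AlgebraicCurve WithZero Polynomial

namespace Fermat.Agent.Mazur.Weil

section Abstract

variable {K F F' : Type*} [Field K] [Field F] [Field F'] [Algebra K F] [Algebra K F']
  [Algebra F F'] [IsScalarTower K F F'] [FiniteDimensional F F'] [IsAlgClosed K]
  [RR.FunctionField K F] [RR.FunctionField K F']

theorem infinite_place' : Infinite (Place K F') := by
  haveI : Fermat.FF.IsFF1 K F' := isFF1
  by_contra h
  rw [not_infinite_iff_finite] at h
  haveI := Fintype.ofFinite (Place K F')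
  obtain ⟨f, hf, hf'⟩ := Fermat.Agent.Jan.Approx.exists_ord_eq (Finset.univ : Finset (Place K F'))
    (fun _ => 1)
  have h1 := RR.degree_divOf (K := K) f
  have h2 : RR.divOf (K := K) f = ∑ P : Place K F', Finsupp.single P (1 : ℤ) := by
    ext P
    rw [RR.divOf_apply, hf' P (Finset.mem_univ P), Finsupp.finsetSum_apply]
    simp
  rw [h2, map_sum] at h1
  simp only [RR.degree_single_one, Finset.sum_const, nsmul_eq_mul, mul_one] at h1
  obtain ⟨P⟩ := RR.FunctionField.nonempty_place (K := K) (F := F')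
  haveI : Nonempty (Place K F') := ⟨P⟩
  have h3 : 0 < (Finset.univ : Finset (Place K F')).card := Finset.card_pos.mpr Finset.univ_nonempty
  omega

theorem restrict_smul (τ : F' ≃ₐ[K] F') (hτ : ∀ a : F, τ (algebraMap F F' a) = algebraMap F F' a)
    (P : Place K F') : (SemilinearAut.ofAlgAut τ • P).restrict F = P.restrict F := by
  ext a
  rw [Place.mem_restrict_iff, Place.mem_restrict_iff, ← smul_mem_smul_iff (SemilinearAut.ofAlgAut τ)
    P (algebraMap F F' a), SemilinearAut.ofAlgAut_smul, hτ]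

/-- The key construction. -/
theorem exists_weil_eq (hdiv : ∀ (n : ℕ) (_ : n ≠ 0) (x : Pic0 K F'), ∃ y, n • y = x) {n : ℕ}
    (hn : n ≠ 0) {x : Pic0 K F} (r : Rep n x) (u : F') (hu : u ^ n = algebraMap F F' r.f)
    (τ : F' ≃ₐ[K] F') (hτ : ∀ a : F, τ (algebraMap F F' a) = algebraMap F F' a) (ζ : K)
    (hζ : ζ ≠ 0) (hτu : τ u = algebraMap K F' ζ * u) : ∃ y : Pic0 K F, n • y = 0 ∧
      weil n x y = ζ := by
  classical
  haveI : Fermat.FF.IsFF1 K F := isFF1
  have hu0 : u ≠ 0 := by
    rintro rfl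
    rw [zero_pow hn] at hu
    exact r.f_ne ((map_eq_zero _).mp hu.symm)
  -- the divisor of `u`
  have hdivu : RR.divOf (K := K) u = (r.D : Divisor K F).pullback F' := by
    ext w
    have h1 : (n : ℤ) * w.ord u = (n : ℤ) * ((r.D : Divisor K F).pullback F') w := by
      rw [← RR.ord_pow, hu, w.ord_restrict (F := F), Divisor.pullback_apply]
      have h2 := DFunLike.congr_fun r.div_eq (w.restrict F)
      rw [Finsupp.smul_apply, RR.divOf_apply, nsmul_eq_mul] at h2
      rw [← h2]
      ring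
    rw [RR.divOf_apply]
    exact mul_left_cancel₀ (by exact_mod_cast hn) h1
  -- a point away from `D`
  set S' : Finset (Place K F') := (r.D : Divisor K F).support.biUnion fun v => v.fiber F' with hS'
  have hS'mem : ∀ w : Place K F', (r.D : Divisor K F) (w.restrict F) ≠ 0 → w ∈ S' := by
    intro w hw
    rw [hS', Finset.mem_biUnion]
    exact ⟨_, Finsupp.mem_support_iff.mpr hw, Place.mem_fiber.mpr rfl⟩
  haveI := infinite_place' (K := K) (F' := F')
  obtain ⟨P, hP⟩ := Infinite.exists_notMem_finset S'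
  have hPD : (r.D : Divisor K F) (P.restrict F) = 0 := by
    by_contra h0
    exact hP (hS'mem P h0)
  set g := SemilinearAut.ofAlgAut τ with hg
  have hgP : (g • P).restrict F = P.restrict F := restrict_smul τ hτ P
  have hordP : ∀ w : Place K F', (r.D : Divisor K F) (w.restrict F) = 0 → w.ord u = 0 := by
    intro w hw
    rw [← RR.divOf_apply (K := K), hdivu, Divisor.pullback_apply, hw, mul_zero]
  -- the degree zero divisor `P - τ P`
  set C : Divisor K F' := Finsupp.single P 1 - Finsupp.single (g • P) 1 with hC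
  have hCdeg : Divisor.degree C = 0 := by
    rw [hC, map_sub, RR.degree_single_one, RR.degree_single_one, sub_self]
  obtain ⟨E₂c, hE₂c⟩ := hdiv n hn (Pic0.mk ⟨C, hCdeg⟩)
  obtain ⟨s₂, hs₂⟩ := exists_rep (n := 0) (zero_nsmul E₂c) S'
  set E₂ := s₂.D with hE₂
  have hE₂mk : Pic0.mk E₂ = E₂c := s₂.mk_eq
  have hprin : Divisor.IsPrincipal (C - n • (E₂ : Divisor K F')) := by
    have h1 : Pic0.mk (⟨C, hCdeg⟩ : Divisor.degZero (K := K) (F := F')) = Pic0.mk (n • E₂) := by
      rw [mk_nsmul, hE₂mk, hE₂c]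
    exact mk_eq_mk_iff.mp h1
  obtain ⟨h, hh0, hh⟩ := isPrincipal_iff.mp hprin
  have hCE : n • (E₂ : Divisor K F') = C - RR.divOf h := by rw [← hh]; abel
  have hNh0 : Algebra.norm F h ≠ 0 := Algebra.norm_ne_zero_iff.mpr hh0
  -- the class `y`
  have hpushC : Divisor.pushforward F C = 0 := by
    rw [hC, map_sub, Divisor.pushforward_single, Divisor.pushforward_single, hgP, inertiaDeg_one,
      inertiaDeg_one, sub_self]
  have hpushh : Divisor.pushforward F (RR.divOf (K := K) h) = RR.divOf (Algebra.norm F h) := by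
    ext v
    rw [RR.divOf_apply]
    exact Fermat.FF.Rel.normFormula K F F' h hh0 _ (fun w => RR.divOf_apply h w) v
  have hE'deg : Divisor.degree (Divisor.pushforward F (E₂ : Divisor K F')) = 0 := by
    rw [Divisor.degree_pushforward]
    exact E₂.2
  set E' : Divisor.degZero (K := K) (F := F) :=
    ⟨Divisor.pushforward F (E₂ : Divisor K F'), hE'deg⟩ with hE'
  have hE'div : n • (E' : Divisor K F) = RR.divOf (Algebra.norm F h)⁻¹ := by
    change n • Divisor.pushforward F (E₂ : Divisor K F') = _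
    rw [← map_nsmul, hCE, map_sub, hpushC, hpushh, RR.divOf_inv, zero_sub]
  let s : Rep n (Pic0.mk E') := ⟨E', (Algebra.norm F h)⁻¹, inv_ne_zero hNh0, rfl, hE'div⟩
  -- `E₂` avoids the fibre over `D`
  have hE₂D : ∀ w : Place K F', (E₂ : Divisor K F') w ≠ 0 →
      (r.D : Divisor K F) (w.restrict F) = 0 := by
    intro w hw
    by_contra h0
    exact hw (hs₂ w (hS'mem w h0))
  have hdisj : DisjRep r s := by
    intro v hv
    change Divisor.pushforward F (E₂ : Divisor K F') v = 0
    rw [Divisor.pushforward_apply]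
    refine Finset.sum_eq_zero fun w hw => ?_
    split_ifs with hwv
    · exfalso
      exact hv (by rw [← hwv]; exact hE₂D w (Finsupp.mem_support_iff.mp hw))
    · rfl
  refine ⟨Pic0.mk E', s.torsion, ?_⟩
  have hduE : Disj u (E₂ : Divisor K F') := fun w hw => hordP w (hE₂D w hw)
  have hduC : Disj u C := by
    rw [hC]
    exact (disj_single (hordP P hPD) 1).sub (disj_single (hordP _ (by rw [hgP]; exact hPD)) 1)
  have hduh : Disj u (RR.divOf (K := K) h) := by
    rw [← hh]
    exact hduC.sub (hduE.nsmul n)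
  have hhD : Disj h ((r.D : Divisor K F).pullback F') := by
    intro w hw
    have hw' : (r.D : Divisor K F) (w.restrict F) ≠ 0 := by
      rw [Divisor.pullback_apply] at hw
      exact right_ne_zero_of_mul hw
    by_contra h0
    rw [← RR.divOf_apply (K := K)] at h0
    have h1 := hduh w h0
    rw [← RR.divOf_apply (K := K), hdivu] at h1
    exact hw h1
  -- the value
  have hevgP : ev (g • P) u = ζ⁻¹ * ev P u := by
    have h1 : g • (algebraMap K F' ζ⁻¹ * u) = u := by
      rw [smul_mul', SemilinearAut.smul_algebraMap, SemilinearAut.ofAlgAut_smul, hτu,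
        SemilinearAut.baseAut_ofAlgAut, ← mul_assoc]
      change algebraMap K F' ζ⁻¹ * algebraMap K F' ζ * u = u
      rw [← map_mul, inv_mul_cancel₀ hζ, map_one, one_mul]
    conv_lhs => rw [← h1]
    rw [ev_smul, SemilinearAut.baseAut_ofAlgAut, ev_mul (P.algebraMap_mem' _)
      (mem_of_ord_eq (hordP P hPD)), ev_algebraMap]
    rfl
  have hevP : ev P u ≠ 0 := ev_ne_zero hu0 (hordP P hPD)
  have e1 : evalDiv u C = ζ := by
    rw [hC, evalDiv_sub hu0 (disj_single (hordP P hPD) 1)
      (disj_single (hordP _ (by rw [hgP]; exact hPD)) 1), evalDiv_single, evalDiv_single, zpow_one,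
      zpow_one, hevgP]
    field_simp
  have e2 : evalDiv u (RR.divOf (K := K) h) = evalDiv (Algebra.norm F h) (r.D : Divisor K F) := by
    rw [weil_reciprocity hu0 hh0 hduh, hdivu, evalDiv_pullback hh0 hhD]
  have hNhD : Disj (Algebra.norm F h) (r.D : Divisor K F) := disj_norm hh0 hhD
  have e3 : evalDiv r.f (E' : Divisor K F) =
      ζ / evalDiv (Algebra.norm F h) (r.D : Divisor K F) := by
    change evalDiv r.f (Divisor.pushforward F (E₂ : Divisor K F')) = _
    have hd : Disj (algebraMap F F' r.f) (E₂ : Divisor K F') := by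
      rw [← hu]; exact hduE.pow n
    rw [evalDiv_pushforward r.f_ne hd, ← hu, evalDiv_pow hduE, ← evalDiv_nsmul, hCE,
      evalDiv_sub hu0 hduC hduh, e1, e2]
  have e4 : evalDiv s.f (r.D : Divisor K F) =
      (evalDiv (Algebra.norm F h) (r.D : Divisor K F))⁻¹ := evalDiv_inv hNh0 hNhD
  have h5 : evalDiv (Algebra.norm F h) (r.D : Divisor K F) ≠ 0 := evalDiv_ne_zero hNh0 hNhD
  rw [weil_eq_val r s hdisj, val, e3, e4]
  field_simp

end Abstract

section Kummer

universe u v

variable {K : Type u} {F : Type v} [Field K] [Field F] [Algebra K F] [IsAlgClosed K] [CharZero K]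
  [RR.FunctionField K F]

/-- Surjectivity of `weil r x` for `x ≠ 0`, `r` prime. -/
theorem exists_weil_eq_of_prime {r : ℕ} (hr : r.Prime) {x : Pic0 K F} (hx : r • x = 0)
    (hx0 : x ≠ 0) {ζ : K} (hζ : ζ ^ r = 1) : ∃ y : Pic0 K F, r • y = 0 ∧ weil r x y = ζ := by
  obtain ⟨s, -⟩ := exists_rep hx ∅
  have hirr : Irreducible (X ^ r - C s.f : F[X]) := by
    refine X_pow_sub_C_irreducible_of_prime hr fun b hb => hx0 ?_
    have hb0 : b ≠ 0 := by
      rintro rfl
      rw [zero_pow hr.ne_zero] at hb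
      exact s.f_ne hb.symm
    rw [← s.mk_eq, mk_eq_zero_iff, isPrincipal_iff]
    refine ⟨b, hb0, Finsupp.ext fun v => ?_⟩
    have h1 := DFunLike.congr_fun s.div_eq v
    rw [Finsupp.smul_apply, RR.divOf_apply, nsmul_eq_mul, ← hb, RR.ord_pow] at h1
    rw [RR.divOf_apply]
    exact mul_left_cancel₀ (by exact_mod_cast hr.ne_zero) h1
  haveI hfact := Fact.mk hirr
  haveI : FiniteDimensional F (AdjoinRoot (X ^ r - C s.f : F[X])) :=
    (AdjoinRoot.powerBasis hirr.ne_zero).finite
  haveI : Fermat.FF.IsFF1 K F := isFF1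
  haveI : Fermat.FF.IsFF1 K (AdjoinRoot (X ^ r - C s.f : F[X])) :=
    Fermat.Agent.Jan.RelFundamental.isFF1_of_finite K F _
  haveI : RR.FunctionField K (AdjoinRoot (X ^ r - C s.f : F[X])) := RR.functionField_of_isFF1 _ _
  have hζ0 : ζ ≠ 0 := by
    rintro rfl
    rw [zero_pow hr.ne_zero] at hζ
    exact zero_ne_one hζ
  let η : rootsOfUnity r F := ⟨Units.mk0 (algebraMap K F ζ) ((_root_.map_ne_zero _).mpr hζ0), by
    rw [mem_rootsOfUnity']
    change algebraMap K F ζ ^ r = 1
    rw [← map_pow, hζ, map_one]⟩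
  let τ := (autAdjoinRootXPowSubC r s.f η).restrictScalars K
  refine exists_weil_eq (F' := AdjoinRoot (X ^ r - C s.f : F[X]))
    (fun n hn x => Fermat.Agent.S27D.pic0_divisible K _ n hn x) hr.ne_zero s
    (AdjoinRoot.root _) (root_X_pow_sub_C_pow r s.f) τ
    (fun a => (autAdjoinRootXPowSubC r s.f η).commutes a) ζ hζ0 ?_
  change autAdjoinRootXPowSubC r s.f η (AdjoinRoot.root _) = _
  rw [autAdjoinRootXPowSubC_root]
  change (algebraMap K F ζ : F) • AdjoinRoot.root _ = _
  rw [Algebra.smul_def, ← IsScalarTower.algebraMap_apply]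

/-- **Nondegeneracy** at prime level. -/
theorem eq_zero_of_weil_prime {r : ℕ} (hr : r.Prime) {x : Pic0 K F} (hx : r • x = 0)
    (h : ∀ y : Pic0 K F, r • y = 0 → weil r x y = 1) : x = 0 := by
  by_contra hx0
  haveI : NeZero (r : K) := ⟨by exact_mod_cast hr.ne_zero⟩
  obtain ⟨ζ, hζ⟩ := HasEnoughRootsOfUnity.exists_primitiveRoot K r
  obtain ⟨y, hy, hxy⟩ := exists_weil_eq_of_prime hr hx hx0 hζ.pow_eq_one
  rw [h y hy] at hxy
  exact hζ.ne_one hr.one_lt hxy.symm

theorem weil_mul_right' {m n : ℕ} {x y : Pic0 K F} (hx : n • x = 0) (hy : (m * n) • y = 0) :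
    weil (m * n) x y = weil n x (m • y) := by
  rw [weil_swap (m * n) y x, weil_mul m hy hx, ← weil_swap]

/-- **Nondegeneracy** of the Weil pairing at every level `n ≠ 0`. -/
theorem eq_zero_of_weil {n : ℕ} (hn : n ≠ 0) {x : Pic0 K F} (hx : n • x = 0)
    (h : ∀ y : Pic0 K F, n • y = 0 → weil n x y = 1) : x = 0 := by
  by_contra hx0
  -- the order of `x`
  have hfin : IsOfFinAddOrder x := isOfFinAddOrder_iff_nsmul_eq_zero.mpr ⟨n, Nat.pos_of_ne_zero hn, hx⟩
  have hord : addOrderOf x ∣ n := addOrderOf_dvd_of_nsmul_eq_zero hx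
  have hord1 : addOrderOf x ≠ 1 := fun h1 => hx0 (AddMonoid.addOrderOf_eq_one_iff.mp h1)
  obtain ⟨r, hr, hrd⟩ := Nat.exists_prime_and_dvd hord1
  obtain ⟨k, hk⟩ := hrd
  -- `n = r k m`
  obtain ⟨m, hm⟩ := hord
  have hk0 : k ≠ 0 := by
    rintro rfl
    rw [mul_zero] at hk
    exact hfin.addOrderOf_pos.ne' hk
  have hm0 : m ≠ 0 := by
    rintro rfl
    rw [mul_zero] at hm
    exact hn hm
  -- `k x` has order `r`
  have hkx : r • (k • x) = 0 := by
    rw [← mul_nsmul', ← hk, addOrderOf_nsmul_eq_zero]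
  have hkx0 : k • x ≠ 0 := by
    intro h0
    have h1 := addOrderOf_dvd_of_nsmul_eq_zero h0
    rw [hk] at h1
    have h2 := Nat.le_of_dvd (Nat.pos_of_ne_zero hk0) h1
    have h3 := hr.two_le
    nlinarith [Nat.pos_of_ne_zero hk0]
  refine hkx0 (eq_zero_of_weil_prime hr hkx fun z hz => ?_)
  -- divide `z` by `m`
  obtain ⟨y, hy⟩ := Fermat.Agent.S27D.pic0_divisible K F m hm0 z
  have hrk : (r * k) • x = 0 := by rw [← hk, addOrderOf_nsmul_eq_zero]
  have hn' : n = m * (r * k) := by rw [hm, hk]; ring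
  have hny : n • y = 0 := by
    rw [hn', show m * (r * k) = (k * r) * m by ring, mul_nsmul', hy, mul_nsmul', hz, nsmul_zero]
  have h1 := h y hny
  rw [hn', weil_mul_right' hrk (by rw [← hn']; exact hny), hy, mul_comm r k,
    weil_mul k (by rw [mul_comm]; exact hrk) hz] at h1
  exact h1

end Kummer

end Fermat.Agent.Mazur.Weil
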