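import Fermat.Agent.RR.Corollaries
import Fermat.Agent.FF.Principal

set_option autoImplicit false
set_option linter.unusedSectionVars false

/-!
# Values of functions at places and divisors

`K` algebraically closed, `F / K` a function field.
* `evHom P : P.toValuationSubring →+* K`, `ev P f : K` (`0` if `f` has a pole at `P`);
* `evalDiv f D = ∏_P f(P)^(D P)`.
-/

noncomputable section

open AlgebraicCurve WithZero Fermat.FF IntermediateField

namespace Fermat.Agent.Mazur.Weil

variable {K F : Type*} [Field K] [Field F] [Algebra K F] [IsAlgClosed K] [RR.FunctionField K F]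

theorem bijective_residue (P : Place K F) : Function.Bijective (algebraMap K P.ResidueField) :=
  IsAlgClosed.algebraMap_bijective_of_isIntegral

/-- Evaluation at a place. -/
def evHom (P : Place K F) : P.toValuationSubring →+* K :=
  (RingEquiv.ofBijective (algebraMap K P.ResidueField) (bijective_residue P)).symm.toRingHom.comp
    (IsLocalRing.residue P.toValuationSubring)

theorem algebraMap_evHom (P : Place K F) (f : P.toValuationSubring) :
    algebraMap K P.ResidueField (evHom P f) = IsLocalRing.residue P.toValuationSubring f :=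
  (RingEquiv.ofBijective (algebraMap K P.ResidueField) (bijective_residue P)).apply_symm_apply _

theorem evHom_algebraMap (P : Place K F) (c : K) :
    evHom P ⟨algebraMap K F c, P.algebraMap_mem' c⟩ = c := by
  apply (bijective_residue P).1
  rw [algebraMap_evHom]
  rfl

theorem evHom_eq_zero_iff (P : Place K F) (f : P.toValuationSubring) :
    evHom P f = 0 ↔ P.adicValuation (f : F) < 1 := by
  rw [← Fermat.FF.mem_maximalIdeal_iff, ← IsLocalRing.residue_eq_zero_iff, ← algebraMap_evHom,
    map_eq_zero_iff _ (bijective_residue P).1]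

/-- The value of `f` at `P` (`0` if `f` has a pole). -/
def ev (P : Place K F) (f : F) : K := by
  classical exact if h : f ∈ P.toValuationSubring then evHom P ⟨f, h⟩ else 0

theorem ev_of_mem {P : Place K F} {f : F} (h : f ∈ P.toValuationSubring) :
    ev P f = evHom P ⟨f, h⟩ := by
  rw [ev, dif_pos h]

theorem mem_of_ord_eq {P : Place K F} {f : F} (h : P.ord f = 0) : f ∈ P.toValuationSubring :=
  RR.mem_of_ord_nonneg P h.ge

@[simp]
theorem ev_algebraMap (P : Place K F) (c : K) : ev P (algebraMap K F c) = c := by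
  rw [ev_of_mem (P.algebraMap_mem' c), evHom_algebraMap]

@[simp]
theorem ev_one (P : Place K F) : ev P (1 : F) = 1 := by
  have := ev_algebraMap P (1 : K)
  rwa [map_one] at this

@[simp]
theorem ev_zero (P : Place K F) : ev P (0 : F) = 0 := by
  have := ev_algebraMap P (0 : K)
  rwa [map_zero] at this

theorem ev_add {P : Place K F} {f g : F} (hf : f ∈ P.toValuationSubring)
    (hg : g ∈ P.toValuationSubring) : ev P (f + g) = ev P f + ev P g := by
  rw [ev_of_mem hf, ev_of_mem hg, ev_of_mem (add_mem hf hg), ← map_add]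
  rfl

theorem ev_sub {P : Place K F} {f g : F} (hf : f ∈ P.toValuationSubring)
    (hg : g ∈ P.toValuationSubring) : ev P (f - g) = ev P f - ev P g := by
  rw [ev_of_mem hf, ev_of_mem hg, ev_of_mem (sub_mem hf hg), ← map_sub]
  rfl

theorem ev_mul {P : Place K F} {f g : F} (hf : f ∈ P.toValuationSubring)
    (hg : g ∈ P.toValuationSubring) : ev P (f * g) = ev P f * ev P g := by
  rw [ev_of_mem hf, ev_of_mem hg, ev_of_mem (mul_mem hf hg), ← map_mul]
  rfl

theorem ev_eq_zero_iff {P : Place K F} {f : F} (hf : f ∈ P.toValuationSubring) :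
    ev P f = 0 ↔ P.adicValuation f < 1 := by
  rw [ev_of_mem hf, evHom_eq_zero_iff]

theorem ev_eq_zero_iff_ord {P : Place K F} {f : F} (hf : f ∈ P.toValuationSubring) :
    ev P f = 0 ↔ f = 0 ∨ 0 < P.ord f := by
  rw [ev_eq_zero_iff hf, Fermat.FF.val_lt_one_iff]

theorem ev_ne_zero {P : Place K F} {f : F} (hf0 : f ≠ 0) (h : P.ord f = 0) : ev P f ≠ 0 := by
  rw [Ne, ev_eq_zero_iff_ord (mem_of_ord_eq h)]
  push Not
  exact ⟨hf0, h.le⟩

theorem ev_eq_iff {P : Place K F} {f : F} (hf : f ∈ P.toValuationSubring) (c : K) :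
    ev P f = c ↔ P.adicValuation (f - algebraMap K F c) < 1 := by
  rw [← ev_eq_zero_iff (sub_mem hf (P.algebraMap_mem' c)), ev_sub hf (P.algebraMap_mem' c),
    ev_algebraMap, sub_eq_zero]

theorem val_sub_ev_lt_one {P : Place K F} {f : F} (hf : f ∈ P.toValuationSubring) :
    P.adicValuation (f - algebraMap K F (ev P f)) < 1 := (ev_eq_iff hf _).mp rfl

theorem ev_inv {P : Place K F} {f : F} (hf0 : f ≠ 0) (h : P.ord f = 0) :
    ev P f⁻¹ = (ev P f)⁻¹ := by
  have h' : P.ord f⁻¹ = 0 := by rw [P.ord_inv, h, neg_zero]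
  apply eq_inv_of_mul_eq_one_left
  rw [← ev_mul (mem_of_ord_eq h') (mem_of_ord_eq h), inv_mul_cancel₀ hf0, ev_one]

theorem ev_pow {P : Place K F} {f : F} (h : f ∈ P.toValuationSubring) (n : ℕ) :
    ev P (f ^ n) = ev P f ^ n := by
  induction n with
  | zero => simp
  | succ n ih => rw [pow_succ, pow_succ, ev_mul (pow_mem h n) h, ih]

theorem ord_zpow_eq_zero {P : Place K F} {f : F} (h : P.ord f = 0) (n : ℤ) :
    P.ord (f ^ n) = 0 := by
  rw [P.ord_zpow, h, mul_zero]

theorem ev_zpow {P : Place K F} {f : F} (hf0 : f ≠ 0) (h : P.ord f = 0) (n : ℤ) :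
    ev P (f ^ n) = ev P f ^ n := by
  obtain ⟨m, rfl | rfl⟩ := n.eq_nat_or_neg
  · rw [zpow_natCast, zpow_natCast, ev_pow (mem_of_ord_eq h)]
  · rw [zpow_neg, zpow_neg, zpow_natCast, zpow_natCast, ev_inv (pow_ne_zero m hf0) (by
      rw [RR.ord_pow, h, mul_zero]), ev_pow (mem_of_ord_eq h)]

/-- `f` is a unit at all places in the support of `D`. -/
def Disj (f : F) (D : Divisor K F) : Prop := ∀ P, D P ≠ 0 → P.ord f = 0

/-- `f(D) = ∏_P f(P)^(D P)`. -/
def evalDiv (f : F) (D : Divisor K F) : K := D.prod fun P n => ev P f ^ n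

theorem evalDiv_eq_prod (f : F) (D : Divisor K F) (s : Finset (Place K F))
    (hs : D.support ⊆ s) : evalDiv f D = ∏ P ∈ s, ev P f ^ D P :=
  Finsupp.prod_of_support_subset D hs _ fun _ _ => zpow_zero _

@[simp]
theorem evalDiv_zero (f : F) : evalDiv f (0 : Divisor K F) = 1 := by
  simp [evalDiv]

@[simp]
theorem evalDiv_single (f : F) (P : Place K F) (n : ℤ) :
    evalDiv f (Finsupp.single P n) = ev P f ^ n := by
  simp [evalDiv]

theorem Disj.ev_ne_zero {f : F} {D : Divisor K F} (hf : f ≠ 0) (h : Disj f D) {P : Place K F}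
    (hP : D P ≠ 0) : ev P f ≠ 0 := Weil.ev_ne_zero hf (h P hP)

theorem evalDiv_ne_zero {f : F} {D : Divisor K F} (hf : f ≠ 0) (h : Disj f D) :
    evalDiv f D ≠ 0 := by
  rw [evalDiv, Finsupp.prod]
  refine Finset.prod_ne_zero_iff.mpr fun P hP => zpow_ne_zero _ ?_
  exact h.ev_ne_zero hf (Finsupp.mem_support_iff.mp hP)

theorem evalDiv_mul {f g : F} {D : Divisor K F} (hf : Disj f D) (hg : Disj g D) :
    evalDiv (f * g) D = evalDiv f D * evalDiv g D := by
  rw [evalDiv, evalDiv, evalDiv, Finsupp.prod, Finsupp.prod, Finsupp.prod,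
    ← Finset.prod_mul_distrib]
  refine Finset.prod_congr rfl fun P hP => ?_
  rw [Finsupp.mem_support_iff] at hP
  rw [ev_mul (mem_of_ord_eq (hf P hP)) (mem_of_ord_eq (hg P hP)), mul_zpow]

@[simp]
theorem evalDiv_one (D : Divisor K F) : evalDiv (1 : F) D = 1 := by
  simp [evalDiv, Finsupp.prod]

theorem evalDiv_inv {f : F} {D : Divisor K F} (hf0 : f ≠ 0) (hf : Disj f D) :
    evalDiv f⁻¹ D = (evalDiv f D)⁻¹ := by
  rw [evalDiv, evalDiv, Finsupp.prod, Finsupp.prod, ← Finset.prod_inv_distrib]
  refine Finset.prod_congr rfl fun P hP => ?_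
  rw [Finsupp.mem_support_iff] at hP
  rw [ev_inv hf0 (hf P hP), inv_zpow]

theorem evalDiv_pow {f : F} {D : Divisor K F} (hf : Disj f D) (n : ℕ) :
    evalDiv (f ^ n) D = evalDiv f D ^ n := by
  rw [evalDiv, evalDiv, Finsupp.prod, Finsupp.prod, ← Finset.prod_pow]
  refine Finset.prod_congr rfl fun P hP => ?_
  rw [Finsupp.mem_support_iff] at hP
  rw [ev_pow (mem_of_ord_eq (hf P hP)), ← zpow_natCast, ← zpow_natCast, ← zpow_mul, ← zpow_mul,
    mul_comm]

theorem evalDiv_add {f : F} (hf0 : f ≠ 0) {D E : Divisor K F} (hD : Disj f D) (hE : Disj f E) :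
    evalDiv f (D + E) = evalDiv f D * evalDiv f E := by
  classical
  rw [evalDiv_eq_prod f (D + E) (D.support ∪ E.support) Finsupp.support_add,
    evalDiv_eq_prod f D (D.support ∪ E.support) Finset.subset_union_left,
    evalDiv_eq_prod f E (D.support ∪ E.support) Finset.subset_union_right,
    ← Finset.prod_mul_distrib]
  refine Finset.prod_congr rfl fun P hP => ?_
  rw [Finset.mem_union, Finsupp.mem_support_iff, Finsupp.mem_support_iff] at hP
  rw [Finsupp.add_apply, zpow_add₀]
  exact hP.elim (fun h => hD.ev_ne_zero hf0 h) (fun h => hE.ev_ne_zero hf0 h)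

theorem evalDiv_neg {f : F} {D : Divisor K F} : evalDiv f (-D) = (evalDiv f D)⁻¹ := by
  rw [evalDiv_eq_prod f (-D) D.support (by rw [Finsupp.support_neg]), evalDiv, Finsupp.prod,
    ← Finset.prod_inv_distrib]
  refine Finset.prod_congr rfl fun P _ => ?_
  rw [Finsupp.neg_apply, zpow_neg]

omit [IsAlgClosed K] [RR.FunctionField K F] in
theorem Disj.neg {f : F} {D : Divisor K F} (h : Disj f D) : Disj f (-D) := fun P hP =>
  h P fun h0 => hP (by rw [Finsupp.neg_apply, h0, neg_zero])

omit [IsAlgClosed K] [RR.FunctionField K F] in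
theorem Disj.add {f : F} {D E : Divisor K F} (hD : Disj f D) (hE : Disj f E) :
    Disj f (D + E) := fun P hP => by
  by_cases h : D P = 0
  · exact hE P fun h0 => hP (by rw [Finsupp.add_apply, h, h0, add_zero])
  · exact hD P h

omit [IsAlgClosed K] [RR.FunctionField K F] in
theorem Disj.sub {f : F} {D E : Divisor K F} (hD : Disj f D) (hE : Disj f E) :
    Disj f (D - E) := by
  rw [sub_eq_add_neg]; exact hD.add hE.neg

omit [IsAlgClosed K] [RR.FunctionField K F] in
theorem Disj.nsmul {f : F} {D : Divisor K F} (hD : Disj f D) (n : ℕ) : Disj f (n • D) :=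
  fun P hP => hD P fun h0 => hP (by rw [Finsupp.smul_apply, h0, smul_zero])

omit [IsAlgClosed K] [RR.FunctionField K F] in
theorem Disj.mul {f g : F} {D : Divisor K F} (hf0 : f ≠ 0) (hg0 : g ≠ 0) (hf : Disj f D)
    (hg : Disj g D) : Disj (f * g) D := fun P hP => by
  rw [P.ord_mul hf0 hg0, hf P hP, hg P hP, add_zero]

omit [IsAlgClosed K] [RR.FunctionField K F] in
theorem Disj.inv {f : F} {D : Divisor K F} (hf : Disj f D) : Disj f⁻¹ D := fun P hP => by
  rw [P.ord_inv, hf P hP, neg_zero]

omit [IsAlgClosed K] [RR.FunctionField K F] in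
theorem Disj.pow {f : F} {D : Divisor K F} (hf : Disj f D) (n : ℕ) : Disj (f ^ n) D :=
  fun P hP => by rw [RR.ord_pow, hf P hP, mul_zero]

theorem disj_algebraMap (c : K) (D : Divisor K F) : Disj (algebraMap K F c) D :=
  fun P _ => RR.ord_algebraMap P c

theorem evalDiv_sub {f : F} (hf0 : f ≠ 0) {D E : Divisor K F} (hD : Disj f D) (hE : Disj f E) :
    evalDiv f (D - E) = evalDiv f D / evalDiv f E := by
  rw [sub_eq_add_neg, evalDiv_add hf0 hD hE.neg, evalDiv_neg, div_eq_mul_inv]

theorem evalDiv_nsmul {f : F} {D : Divisor K F} (n : ℕ) :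
    evalDiv f (n • D) = evalDiv f D ^ n := by
  rw [evalDiv_eq_prod f (n • D) D.support Finsupp.support_smul, evalDiv, Finsupp.prod,
    ← Finset.prod_pow]
  refine Finset.prod_congr rfl fun P _ => ?_
  rw [Finsupp.smul_apply, nsmul_eq_mul, mul_comm, zpow_mul, zpow_natCast]

theorem evalDiv_algebraMap {c : K} (hc : c ≠ 0) (D : Divisor K F) :
    evalDiv (algebraMap K F c) D = c ^ Divisor.degree D := by
  classical
  induction D using Finsupp.induction with
  | zero => simp
  | single_add P n D _ _ ih =>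
    rw [evalDiv_add (by simpa using hc) (disj_algebraMap _ _) (disj_algebraMap _ _), ih, map_add,
      RR.degree_single_one, zpow_add₀ hc, evalDiv_single, ev_algebraMap]

theorem evalDiv_algebraMap_of_degree {c : K} (hc : c ≠ 0) {D : Divisor K F}
    (hD : Divisor.degree D = 0) : evalDiv (algebraMap K F c) D = 1 := by
  rw [evalDiv_algebraMap hc, hD, zpow_zero]

end Fermat.Agent.Mazur.Weil
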