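import Fermat.Agent.Mazur.Weil.Reciprocity
import Fermat.Agent.Jan.Approx

set_option autoImplicit false
set_option linter.unusedSectionVars false
set_option linter.style.haveILetI false

/-!
# The Weil pairing on `Pic⁰[n]`

`weil n x y = f(D') / f'(D)` for representatives `D`, `D'` of `x`, `y` with disjoint supports,
`n D = div f`, `n D' = div f'`.
-/

noncomputable section

open AlgebraicCurve WithZero

namespace Fermat.Agent.Mazur.Weil

variable {K F : Type*} [Field K] [Field F] [Algebra K F] [IsAlgClosed K] [RR.FunctionField K F]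

/-- A representative of a class `x` killed by `n`, with a function for `n D`. -/
structure Rep (n : ℕ) (x : Pic0 K F) where
  /-- the divisor -/
  D : Divisor.degZero (K := K) (F := F)
  /-- the function -/
  f : F
  f_ne : f ≠ 0
  mk_eq : Pic0.mk D = x
  div_eq : n • (D : Divisor K F) = RR.divOf f

variable {n : ℕ} {x y z : Pic0 K F}

theorem mk_eq_mk_iff {D E : Divisor.degZero (K := K) (F := F)} :
    Pic0.mk D = Pic0.mk E ↔ Divisor.IsPrincipal ((D : Divisor K F) - (E : Divisor K F)) := by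
  rw [← sub_eq_zero]
  change Pic0.mk (D - E) = 0 ↔ _
  rw [show (Pic0.mk (D - E) = 0) ↔ _ from QuotientAddGroup.eq_zero_iff _,
    AddSubgroup.mem_addSubgroupOf]
  rfl

theorem mk_eq_zero_iff {D : Divisor.degZero (K := K) (F := F)} :
    Pic0.mk D = 0 ↔ Divisor.IsPrincipal (D : Divisor K F) := by
  rw [show (Pic0.mk D = 0) ↔ _ from QuotientAddGroup.eq_zero_iff _, AddSubgroup.mem_addSubgroupOf]
  rfl

theorem mk_nsmul (m : ℕ) (D : Divisor.degZero (K := K) (F := F)) :
    Pic0.mk (m • D) = m • Pic0.mk D := rfl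

theorem isPrincipal_iff {D : Divisor K F} :
    Divisor.IsPrincipal D ↔ ∃ f : F, f ≠ 0 ∧ D = RR.divOf f := by
  constructor
  · rintro ⟨f, hf, h⟩
    exact ⟨f, hf, Finsupp.ext fun v => by rw [h v, RR.divOf_apply]⟩
  · rintro ⟨f, hf, rfl⟩
    exact ⟨f, hf, fun v => by rw [RR.divOf_apply]⟩

theorem divOf_pow {f : F} (m : ℕ) : RR.divOf (K := K) (f ^ m) = m • RR.divOf (K := K) f := by
  ext v
  rw [RR.divOf_apply, RR.ord_pow, Finsupp.smul_apply, RR.divOf_apply, nsmul_eq_mul]

/-- moving lemma -/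
theorem exists_rep (hx : n • x = 0) (S : Finset (Place K F)) :
    ∃ r : Rep n x, ∀ P ∈ S, (r.D : Divisor K F) P = 0 := by
  obtain ⟨D, rfl⟩ := Pic0.mk_surjective x
  obtain ⟨h, h0, hh⟩ := Fermat.Agent.Jan.Approx.exists_ord_eq S
    (fun P => - (D : Divisor K F) P)
  have hdeg : Divisor.degree (RR.divOf (K := K) h) = 0 := RR.degree_divOf h
  set E : Divisor.degZero (K := K) (F := F) := D + ⟨RR.divOf h, hdeg⟩ with hE
  have hEc : (E : Divisor K F) = (D : Divisor K F) + RR.divOf h := rfl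
  have hED : Pic0.mk E = Pic0.mk D := by
    rw [mk_eq_mk_iff]
    refine ⟨h, h0, fun v => ?_⟩
    rw [hEc, add_sub_cancel_left, RR.divOf_apply]
  have hx' : Divisor.IsPrincipal ((n • E : Divisor.degZero (K := K) (F := F)) : Divisor K F) := by
    rw [← mk_eq_zero_iff, mk_nsmul, hED, hx]
  obtain ⟨f, hf, hfD⟩ := isPrincipal_iff.mp hx'
  refine ⟨⟨E, f, hf, hED, hfD⟩, fun P hP => ?_⟩
  change (E : Divisor K F) P = 0
  rw [hEc, Finsupp.add_apply, RR.divOf_apply, hh P hP]
  ring

/-- representatives with disjoint supports -/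
def DisjRep (r : Rep n x) (s : Rep n y) : Prop :=
  ∀ P, (r.D : Divisor K F) P ≠ 0 → (s.D : Divisor K F) P = 0

theorem DisjRep.symm {r : Rep n x} {s : Rep n y} (h : DisjRep r s) : DisjRep s r := by
  intro P hP
  by_contra h0
  exact hP (h P h0)

theorem exists_disjRep (r : Rep n x) (hy : n • y = 0) : ∃ s : Rep n y, DisjRep r s := by
  obtain ⟨s, hs⟩ := exists_rep hy (r.D : Divisor K F).support
  exact ⟨s, fun P hP => hs P (Finsupp.mem_support_iff.mpr hP)⟩

theorem exists_disjRep₂ {x' : Pic0 K F} (r : Rep n x) (r' : Rep n x') (hy : n • y = 0) :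
    ∃ s : Rep n y, DisjRep r s ∧ DisjRep r' s := by
  classical
  obtain ⟨s, hs⟩ := exists_rep hy ((r.D : Divisor K F).support ∪ (r'.D : Divisor K F).support)
  exact ⟨s, fun P hP => hs P (Finset.mem_union_left _ (Finsupp.mem_support_iff.mpr hP)),
    fun P hP => hs P (Finset.mem_union_right _ (Finsupp.mem_support_iff.mpr hP))⟩

theorem DisjRep.disj {r : Rep n x} {s : Rep n y} (h : DisjRep r s) :
    Disj r.f (s.D : Divisor K F) := by
  intro P hP
  rw [← RR.divOf_apply (K := K), ← r.div_eq, Finsupp.smul_apply, h.symm P hP, smul_zero]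

theorem DisjRep.disj' {r : Rep n x} {s : Rep n y} (h : DisjRep r s) :
    Disj s.f (r.D : Divisor K F) := h.symm.disj

/-- the value `f(D') / f'(D)`. -/
def val (r : Rep n x) (s : Rep n y) : K :=
  evalDiv r.f (s.D : Divisor K F) / evalDiv s.f (r.D : Divisor K F)

theorem val_swap (r : Rep n x) (s : Rep n y) : val s r = (val r s)⁻¹ := by
  rw [val, val, inv_div]

/-- two functions with the same divisor differ by a constant -/
theorem exists_const {f g : F} (hf : f ≠ 0) (hg : g ≠ 0)
    (h : RR.divOf (K := K) f = RR.divOf g) : ∃ c : K, c ≠ 0 ∧ f = algebraMap K F c * g := by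
  obtain ⟨c, hc, h1⟩ := (RR.divOf_eq_iff hf hg).mp h
  exact ⟨c, hc, by rw [h1, Algebra.smul_def]⟩

theorem val_right (r : Rep n x) (s s' : Rep n y) (h : DisjRep r s) (h' : DisjRep r s') :
    val r s = val r s' := by
  have h1 : Divisor.IsPrincipal ((s.D : Divisor K F) - (s'.D : Divisor K F)) :=
    mk_eq_mk_iff.mp (s.mk_eq.trans s'.mk_eq.symm)
  obtain ⟨g, hg, hgD⟩ := isPrincipal_iff.mp h1
  have hsD : (s.D : Divisor K F) = (s'.D : Divisor K F) + RR.divOf g := by rw [← hgD]; abel
  have h2 : RR.divOf (K := K) s.f = RR.divOf (s'.f * g ^ n) := by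
    rw [RR.divOf_mul s'.f_ne (pow_ne_zero n hg), divOf_pow, ← s.div_eq, ← s'.div_eq, hsD,
      smul_add]
  obtain ⟨c, hc, hcf⟩ := exists_const s.f_ne (mul_ne_zero s'.f_ne (pow_ne_zero n hg)) h2
  -- disjointness
  have hgr : Disj g (r.D : Divisor K F) := by
    intro P hP
    rw [← RR.divOf_apply (K := K), ← hgD, Finsupp.sub_apply, h P hP, h' P hP, sub_zero]
  have hrg : Disj r.f (RR.divOf (K := K) g) := by
    rw [← hgD]
    exact h.disj.sub h'.disj
  have hgr' : Disj g (RR.divOf (K := K) r.f) := by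
    rw [← r.div_eq]
    exact hgr.nsmul n
  have hrec : evalDiv g (RR.divOf (K := K) r.f) = evalDiv r.f (RR.divOf (K := K) g) :=
    (weil_reciprocity r.f_ne hg hrg).symm
  have e1 : evalDiv r.f (s.D : Divisor K F) =
      evalDiv r.f (s'.D : Divisor K F) * evalDiv r.f (RR.divOf (K := K) g) := by
    rw [hsD, evalDiv_add r.f_ne h'.disj hrg]
  have e2 : evalDiv s.f (r.D : Divisor K F) =
      evalDiv s'.f (r.D : Divisor K F) * evalDiv r.f (RR.divOf (K := K) g) := by
    rw [hcf, evalDiv_mul (disj_algebraMap c _)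
      (Disj.mul s'.f_ne (pow_ne_zero n hg) h'.disj' (hgr.pow n)),
      evalDiv_algebraMap_of_degree hc r.D.2, one_mul, evalDiv_mul h'.disj' (hgr.pow n),
      evalDiv_pow hgr, ← hrec, ← r.div_eq, evalDiv_nsmul]
  rw [val, val, e1, e2, mul_div_mul_right _ _ (evalDiv_ne_zero r.f_ne hrg)]

theorem val_left (r r' : Rep n x) (s : Rep n y) (h : DisjRep r s) (h' : DisjRep r' s) :
    val r s = val r' s := by
  rw [← inv_inj, ← val_swap, ← val_swap]
  exact val_right s r r' h.symm h'.symm

theorem val_eq (hy : n • y = 0) (r r' : Rep n x) (s s' : Rep n y) (h : DisjRep r s)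
    (h' : DisjRep r' s') : val r s = val r' s' := by
  obtain ⟨t, ht, ht'⟩ := exists_disjRep₂ r r' hy
  rw [val_right r s t h ht, val_left r r' t ht ht', val_right r' t s' ht' h']

/-- **The Weil pairing** on `Pic⁰[n]` (with value `1` outside). -/
def weil (n : ℕ) (x y : Pic0 K F) : K := by
  classical
  exact if h : ∃ (r : Rep n x) (s : Rep n y), DisjRep r s then
    val h.choose h.choose_spec.choose else 1

theorem Rep.torsion (r : Rep n x) : n • x = 0 := by
  have h := r.mk_eq
  have h2 : Pic0.mk (n • r.D) = 0 := by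
    rw [mk_eq_zero_iff, isPrincipal_iff]
    exact ⟨r.f, r.f_ne, r.div_eq⟩
  rwa [mk_nsmul, h] at h2

theorem weil_eq_val (r : Rep n x) (s : Rep n y) (h : DisjRep r s) : weil n x y = val r s := by
  have h1 : ∃ (r : Rep n x) (s : Rep n y), DisjRep r s := ⟨r, s, h⟩
  rw [weil, dif_pos h1]
  exact val_eq s.torsion _ _ _ _ h1.choose_spec.choose_spec h

/-- The value of the pairing from explicit data. -/
theorem weil_eq {D D' : Divisor.degZero (K := K) (F := F)} {f f' : F} (hf : f ≠ 0) (hf' : f' ≠ 0)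
    (hD : Pic0.mk D = x) (hD' : Pic0.mk D' = y) (hnD : n • (D : Divisor K F) = RR.divOf f)
    (hnD' : n • (D' : Divisor K F) = RR.divOf f')
    (h : ∀ P, (D : Divisor K F) P ≠ 0 → (D' : Divisor K F) P = 0) :
    weil n x y = evalDiv f (D' : Divisor K F) / evalDiv f' (D : Divisor K F) :=
  weil_eq_val (⟨D, f, hf, hD, hnD⟩ : Rep n x) (⟨D', f', hf', hD', hnD'⟩ : Rep n y) h

theorem weil_of_not {n : ℕ} {x y : Pic0 K F} (h : ¬ (n • x = 0 ∧ n • y = 0)) :
    weil n x y = 1 := by
  rw [weil, dif_neg]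
  rintro ⟨r, s, -⟩
  exact h ⟨r.torsion, s.torsion⟩

theorem exists_pair (hx : n • x = 0) (hy : n • y = 0) :
    ∃ (r : Rep n x) (s : Rep n y), DisjRep r s := by
  obtain ⟨r, -⟩ := exists_rep hx ∅
  obtain ⟨s, hs⟩ := exists_disjRep r hy
  exact ⟨r, s, hs⟩

/-- skew symmetry -/
theorem weil_swap (n : ℕ) (x y : Pic0 K F) : weil n y x = (weil n x y)⁻¹ := by
  by_cases h : n • x = 0 ∧ n • y = 0
  · obtain ⟨r, s, hrs⟩ := exists_pair h.1 h.2
    rw [weil_eq_val r s hrs, weil_eq_val s r hrs.symm, val_swap]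
  · rw [weil_of_not h, weil_of_not (fun h' => h h'.symm), inv_one]

theorem val_ne_zero (r : Rep n x) (s : Rep n y) (h : DisjRep r s) : val r s ≠ 0 :=
  div_ne_zero (evalDiv_ne_zero r.f_ne h.disj) (evalDiv_ne_zero s.f_ne h.disj')

theorem weil_ne_zero (n : ℕ) (x y : Pic0 K F) : weil n x y ≠ 0 := by
  by_cases h : n • x = 0 ∧ n • y = 0
  · obtain ⟨r, s, hrs⟩ := exists_pair h.1 h.2
    rw [weil_eq_val r s hrs]
    exact val_ne_zero r s hrs
  · rw [weil_of_not h]; exact one_ne_zero

/-- `weil n x y` is an `n`-th root of unity. -/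
theorem weil_pow (n : ℕ) (x y : Pic0 K F) : weil n x y ^ n = 1 := by
  by_cases h : n • x = 0 ∧ n • y = 0
  · obtain ⟨r, s, hrs⟩ := exists_pair h.1 h.2
    rw [weil_eq_val r s hrs, val, div_pow, ← evalDiv_nsmul, ← evalDiv_nsmul, r.div_eq, s.div_eq,
      weil_reciprocity r.f_ne s.f_ne, div_self]
    · refine evalDiv_ne_zero s.f_ne ?_
      rw [← r.div_eq]
      exact hrs.disj'.nsmul n
    · rw [← s.div_eq]
      exact hrs.disj.nsmul n
  · rw [weil_of_not h, one_pow]

/-- The sum of two representatives. -/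
def Rep.add (r : Rep n x) (s : Rep n y) : Rep n (x + y) where
  D := r.D + s.D
  f := r.f * s.f
  f_ne := mul_ne_zero r.f_ne s.f_ne
  mk_eq := by rw [Pic0.mk_add, r.mk_eq, s.mk_eq]
  div_eq := by
    rw [RR.divOf_mul r.f_ne s.f_ne, ← r.div_eq, ← s.div_eq, ← smul_add]
    rfl

theorem DisjRep.add {r : Rep n x} {s : Rep n y} {t : Rep n z} (h : DisjRep r s)
    (h' : DisjRep r t) : DisjRep r (s.add t) := by
  intro P hP
  change (s.D : Divisor K F) P + (t.D : Divisor K F) P = 0
  rw [h P hP, h' P hP, add_zero]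

/-- additivity on the right -/
theorem weil_add_right (hx : n • x = 0) (hy : n • y = 0) (hz : n • z = 0) :
    weil n x (y + z) = weil n x y * weil n x z := by
  obtain ⟨r, -⟩ := exists_rep hx ∅
  obtain ⟨s, hs⟩ := exists_disjRep r hy
  obtain ⟨t, ht⟩ := exists_disjRep r hz
  rw [weil_eq_val r (s.add t) (hs.add ht), weil_eq_val r s hs, weil_eq_val r t ht]
  have e1 : evalDiv r.f ((s.add t).D : Divisor K F) =
      evalDiv r.f (s.D : Divisor K F) * evalDiv r.f (t.D : Divisor K F) :=
    evalDiv_add r.f_ne hs.disj ht.disj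
  have e2 : evalDiv (s.add t).f (r.D : Divisor K F) =
      evalDiv s.f (r.D : Divisor K F) * evalDiv t.f (r.D : Divisor K F) :=
    evalDiv_mul hs.disj' ht.disj'
  rw [val, val, val, e1, e2, mul_div_mul_comm]

/-- additivity on the left -/
theorem weil_add_left (hx : n • x = 0) (hy : n • y = 0) (hz : n • z = 0) :
    weil n (x + y) z = weil n x z * weil n y z := by
  rw [weil_swap n z (x + y), weil_add_right hz hx hy, mul_inv, ← weil_swap, ← weil_swap]

theorem weil_zero_right (x : Pic0 K F) : weil n x 0 = 1 := by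
  by_cases h : n • x = 0
  · have h1 := weil_add_right (n := n) (y := 0) (z := 0) h (nsmul_zero n) (nsmul_zero n)
    rw [add_zero] at h1
    exact (mul_eq_left₀ (weil_ne_zero n x 0)).mp h1.symm
  · exact weil_of_not fun h' => h h'.1

theorem weil_zero_left (x : Pic0 K F) : weil n 0 x = 1 := by
  rw [weil_swap n x 0, weil_zero_right, inv_one]

theorem weil_neg_right (x y : Pic0 K F) : weil n x (-y) = (weil n x y)⁻¹ := by
  by_cases h : n • x = 0 ∧ n • y = 0
  · have h1 := weil_add_right (n := n) h.1 h.2 (by rw [neg_nsmul, h.2, neg_zero] : n • -y = 0)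
    rw [add_neg_cancel, weil_zero_right] at h1
    exact eq_inv_of_mul_eq_one_right h1.symm
  · rw [weil_of_not h, weil_of_not, inv_one]
    rw [neg_nsmul, neg_eq_zero]
    exact h

theorem weil_neg_left (x y : Pic0 K F) : weil n (-x) y = (weil n x y)⁻¹ := by
  rw [weil_swap n y (-x), weil_neg_right, ← weil_swap]

theorem weil_nsmul_right (hx : n • x = 0) (hy : n • y = 0) (m : ℕ) :
    weil n x (m • y) = weil n x y ^ m := by
  induction m with
  | zero => rw [zero_nsmul, weil_zero_right, pow_zero]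
  | succ m ih =>
    rw [succ_nsmul, weil_add_right hx (by rw [nsmul_left_comm, hy, nsmul_zero]) hy, ih, pow_succ]

theorem weil_nsmul_left (hx : n • x = 0) (hy : n • y = 0) (m : ℕ) :
    weil n (m • x) y = weil n x y ^ m := by
  rw [weil_swap n y (m • x), weil_nsmul_right hy hx, weil_swap n x y, inv_pow, inv_inv]

/-- compatibility in `n` : `weil (m n) x y = weil n (m x) y` for `y ∈ [n]`. -/
theorem weil_mul (m : ℕ) (hx : (m * n) • x = 0) (hy : n • y = 0) :
    weil (m * n) x y = weil n (m • x) y := by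
  obtain ⟨r, -⟩ := exists_rep hx ∅
  have hmD : n • (m • (r.D : Divisor K F)) = RR.divOf r.f := by
    rw [← r.div_eq, smul_smul, mul_comm n m]
  let r' : Rep n (m • x) := ⟨m • r.D, r.f, r.f_ne, by rw [mk_nsmul, r.mk_eq], hmD⟩
  obtain ⟨s, hs⟩ := exists_rep hy (r.D : Divisor K F).support
  have h1 : ∀ P, (r.D : Divisor K F) P ≠ 0 → (s.D : Divisor K F) P = 0 := fun P hP =>
    hs P (Finsupp.mem_support_iff.mpr hP)
  let s' : Rep (m * n) y := ⟨s.D, s.f ^ m, pow_ne_zero m s.f_ne, s.mk_eq, by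
    rw [divOf_pow, ← s.div_eq, smul_smul]⟩
  have h2 : DisjRep r' s := by
    intro P hP
    refine h1 P fun h0 => hP ?_
    change m • (r.D : Divisor K F) P = 0
    rw [h0, smul_zero]
  have h3 : DisjRep r s' := h1
  rw [weil_eq_val r s' h3, weil_eq_val r' s h2, val, val]
  congr 1
  change evalDiv (s.f ^ m) (r.D : Divisor K F) = evalDiv s.f (m • (r.D : Divisor K F))
  rw [evalDiv_nsmul, evalDiv_pow]
  intro P hP
  rw [← RR.divOf_apply (K := K), ← s.div_eq, Finsupp.smul_apply, h1 P hP, smul_zero]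

end Fermat.Agent.Mazur.Weil
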