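import Fermat.Agent.Mazur.Weil.Eval
import Fermat.Agent.FF.RelGlobal
import Fermat.Agent.DR.S36.CharAlong

set_option autoImplicit false
set_option linter.unusedSectionVars false
set_option linter.style.haveILetI false

/-!
# Values of norms

`K` algebraically closed, `F' / F` a finite extension of function fields over `K`, `v` a place of
`F`, `g ∈ F'` a unit at all places above `v`:
`(N g)(v) = ∏_{w ∣ v} g(w)^{e(w|v)}` (`ev_norm`).
-/

noncomputable section

open AlgebraicCurve WithZero Polynomial

namespace Fermat.Agent.Mazur.Weil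

section Inst

variable {K F F' : Type*} [Field K] [Field F] [Field F'] [Algebra K F] [Algebra K F']
  [Algebra F F'] [IsScalarTower K F F'] [FiniteDimensional F F'] [IsAlgClosed K]
  [RR.FunctionField K F] [RR.FunctionField K F']

theorem inertiaDeg_one (w : Place K F') : w.inertiaDeg F = 1 := by
  have h := w.deg_restrict_mul_inertiaDeg (F := F)
  rw [RR.deg_eq_one, RR.deg_eq_one, one_mul] at h
  exact h

theorem isFF1 : Fermat.FF.IsFF1 K F := ⟨RR.FunctionField.exists_finite⟩

theorem ord_norm (v : Place K F) {h : F'} (h0 : h ≠ 0) :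
    v.ord (Algebra.norm F h) = ∑ w ∈ v.fiber F', w.ord h := by
  have := isFF1 (K := K) (F := F)
  have := Fermat.FF.Rel.finiteAt K F F' v
  rw [← Fermat.FF.Rel.sum_ord_mul_inertiaDeg v h0]
  refine Finset.sum_congr ?_ fun w _ => by rw [inertiaDeg_one, Nat.cast_one, mul_one]
  ext w
  rw [Place.mem_fiber, Set.Finite.mem_toFinset]
  rfl

variable (F') in
theorem sum_ram (v : Place K F) :
    ∑ w ∈ v.fiber F', w.ramificationIndex F = Module.finrank F F' := by
  have := isFF1 (K := K) (F := F)
  have := Fermat.FF.Rel.finiteAt K F F' v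
  have h := Fermat.FF.Rel.sum_ramificationIndex_mul_inertiaDeg (F' := F') v
  have h2 : ∑ w ∈ v.fiber F', (w.ramificationIndex F : ℤ) = Module.finrank F F' := by
    rw [← h]
    refine Finset.sum_congr ?_ fun w _ => by rw [inertiaDeg_one, Nat.cast_one, mul_one]
    ext w
    rw [Place.mem_fiber, Set.Finite.mem_toFinset]
    rfl
  exact_mod_cast h2

variable (F') in
theorem fiber_nonempty (v : Place K F) : (v.fiber F').Nonempty := by
  by_contra h
  rw [Finset.not_nonempty_iff_eq_empty] at h
  have h1 := sum_ram F' v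
  rw [h, Finset.sum_empty] at h1
  exact (Module.finrank_pos (R := F) (M := F')).ne h1

theorem mem_of_fiber {v : Place K F} {x : F} (hx : x ∈ v.toValuationSubring) {w : Place K F'}
    (hw : w ∈ v.fiber F') : algebraMap F F' x ∈ w.toValuationSubring := by
  rcases eq_or_ne x 0 with rfl | hx0
  · rw [map_zero]; exact zero_mem _
  apply RR.mem_of_ord_nonneg
  rw [w.ord_restrict (F := F) x, Place.mem_fiber.mp hw]
  exact mul_nonneg (by positivity) (RR.ord_nonneg_of_mem v hx)

/-- values are compatible with restriction -/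
theorem ev_algebraMap_of_mem {v : Place K F} {x : F} (hx : x ∈ v.toValuationSubring)
    {w : Place K F'} (hw : w.restrict F = v) : ev w (algebraMap F F' x) = ev v x := by
  have hw' : w ∈ v.fiber F' := Place.mem_fiber.mpr hw
  rw [ev_eq_iff (mem_of_fiber hx hw'), Fermat.FF.val_lt_one_iff]
  have h1 := (Fermat.FF.val_lt_one_iff v).mp (val_sub_ev_lt_one hx)
  rw [IsScalarTower.algebraMap_apply K F F', ← map_sub]
  rcases h1 with h1 | h1
  · left; rw [h1, map_zero]
  · right
    rw [w.ord_restrict (F := F), hw]
    have := w.ramificationIndex_pos (F := F)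
    positivity

/-- characteristic polynomial -/
def chi (F : Type*) {F' : Type*} [Field F] [Field F'] [Algebra F F'] [FiniteDimensional F F']
    (g : F') : F[X] := (Algebra.lmul F F' g).charpoly

theorem chi_eval (g : F') (t : F) :
    (chi F g).eval t = Algebra.norm F (algebraMap F F' t - g) := by
  change (Algebra.lmul F F' g).charpoly.eval t =
    LinearMap.det (Algebra.lmul F F' (algebraMap F F' t - g))
  rw [LinearMap.eval_charpoly]
  congr 1
  rw [map_sub]
  congr 1
  exact ((Algebra.lmul F F').commutes t).symm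

/-- If a polynomial over `F` takes values in `O_v` at all constants, its coefficients are in
`O_v`. -/
theorem coeff_mem_of_eval (v : Place K F) (p : F[X])
    (h : ∀ c : K, p.eval (algebraMap K F c) ∈ v.toValuationSubring) (n : ℕ) :
    p.coeff n ∈ v.toValuationSubring := by
  have hinf : Infinite K := inferInstance
  let a : ℕ ↪ K := Infinite.natEmbedding K
  refine Fermat.Agent.DR.S36.coeff_mem_of_eval_mem v.toValuationSubring.toSubring p
    (Finset.range (p.natDegree + 1)) (fun i => algebraMap K F (a i)) ?_ ?_ ?_ ?_ ?_ n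
  · intro i _ j _ hij
    exact a.injective ((algebraMap K F).injective hij)
  · rw [Finset.card_range]
    exact lt_of_le_of_lt degree_le_natDegree (by exact_mod_cast Nat.lt_succ_self _)
  · exact fun i => v.algebraMap_mem' _
  · intro i j
    rw [← map_sub, ← map_inv₀]
    exact v.algebraMap_mem' _
  · exact fun i _ => h _

theorem norm_mem {v : Place K F} {h : F'} (hh : ∀ w ∈ v.fiber F', h ∈ w.toValuationSubring) :
    Algebra.norm F h ∈ v.toValuationSubring := by
  rcases eq_or_ne h 0 with rfl | h0
  · rw [Algebra.norm_zero]; exact zero_mem _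
  · apply RR.mem_of_ord_nonneg
    rw [ord_norm v h0]
    exact Finset.sum_nonneg fun w hw => RR.ord_nonneg_of_mem w (hh w hw)

theorem exists_lift (v : Place K F) {g : F'} (hg : ∀ w ∈ v.fiber F', g ∈ w.toValuationSubring) :
    ∃ P : v.toValuationSubring[X], P.Monic ∧ P.natDegree = Module.finrank F F' ∧
      P.map (algebraMap v.toValuationSubring F) = chi F g := by
  have h1 : chi F g ∈ lifts (algebraMap v.toValuationSubring F) := by
    rw [lifts_iff_coeff_lifts]
    intro n
    have h2 : (chi F g).coeff n ∈ v.toValuationSubring := by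
      refine coeff_mem_of_eval v _ (fun c => ?_) n
      rw [chi_eval]
      refine norm_mem fun w hw => sub_mem ?_ (hg w hw)
      exact mem_of_fiber (v.algebraMap_mem' c) hw
    exact ⟨⟨_, h2⟩, rfl⟩
  obtain ⟨P, hP, hdeg, hmon⟩ := lifts_and_natDegree_eq_and_monic h1 (LinearMap.charpoly_monic _)
  refine ⟨P, hmon, ?_, hP⟩
  rw [hdeg]
  exact LinearMap.charpoly_natDegree _

theorem eval_lift {v : Place K F} {g : F'} {P : v.toValuationSubring[X]}
    (hP : P.map (algebraMap v.toValuationSubring F) = chi F g) (c : K) :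
    (P.map (evHom v)).eval c = ev v (Algebra.norm F (algebraMap K F' c - g)) := by
  have h1 : (P.map (evHom v)).eval c = evHom v (P.eval ⟨algebraMap K F c, v.algebraMap_mem' c⟩) := by
    conv_lhs => rw [← evHom_algebraMap v c]
    rw [eval_map, eval₂_at_apply]
  have h2 : ((P.eval ⟨algebraMap K F c, v.algebraMap_mem' c⟩ : v.toValuationSubring) : F) =
      Algebra.norm F (algebraMap K F' c - g) := by
    rw [IsScalarTower.algebraMap_apply K F F', ← chi_eval, ← hP, eval_map]
    exact (eval₂_at_apply (algebraMap v.toValuationSubring F) _).symm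
  rw [h1, ← h2, ev_of_mem (Subtype.coe_prop _)]

/-- Step 1. -/
theorem ev_norm_of_one {v : Place K F} {g : F'} (hg : ∀ w ∈ v.fiber F', w.ord g = 0)
    (hg1 : ∀ w ∈ v.fiber F', ev w g = 1) : ev v (Algebra.norm F g) = 1 := by
  have hmem : ∀ w ∈ v.fiber F', g ∈ w.toValuationSubring := fun w hw => mem_of_ord_eq (hg w hw)
  have hmem' : ∀ w ∈ v.fiber F', 1 - g ∈ w.toValuationSubring := fun w hw =>
    sub_mem (one_mem _) (hmem w hw)
  obtain ⟨P, hmon, hdeg, hP⟩ := exists_lift v hmem'
  have hroots : ∀ c ∈ (P.map (evHom v)).roots, c = 0 := by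
    intro c hc
    by_contra hc0
    have h1 := (mem_roots'.mp hc).2
    rw [IsRoot.def, eval_lift hP] at h1
    have hw1 : ∀ w ∈ v.fiber F', ev w (algebraMap K F' c - (1 - g)) = c := by
      intro w hw
      rw [ev_sub (w.algebraMap_mem' c) (hmem' w hw), ev_algebraMap, ev_sub (one_mem _) (hmem w hw),
        ev_one, hg1 w hw, sub_self, sub_zero]
    obtain ⟨w₀, hw₀⟩ := fiber_nonempty F' v
    have hne : algebraMap K F' c - (1 - g) ≠ 0 := by
      intro h0
      have := hw1 w₀ hw₀
      rw [h0, ev_zero] at this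
      exact hc0 this.symm
    refine ev_ne_zero (P := v) (Algebra.norm_ne_zero_iff.mpr hne) ?_ h1
    rw [ord_norm v hne]
    refine Finset.sum_eq_zero fun w hw => ?_
    have hmem'' : algebraMap K F' c - (1 - g) ∈ w.toValuationSubring :=
      sub_mem (w.algebraMap_mem' c) (hmem' w hw)
    by_contra h3
    have h4 : 0 < w.ord (algebraMap K F' c - (1 - g)) :=
      lt_of_le_of_ne (RR.ord_nonneg_of_mem w hmem'') (Ne.symm h3)
    have h5 := (ev_eq_zero_iff_ord hmem'').mpr (Or.inr h4)
    rw [hw1 w hw] at h5
    exact hc0 h5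
  have hmonP : (P.map (evHom v)).Monic := hmon.map _
  have h2 : P.map (evHom v) = X ^ (P.map (evHom v)).natDegree := by
    have hs : (P.map (evHom v)).Splits := IsAlgClosed.splits _
    have h3 := hs.eq_prod_roots_of_monic hmonP
    have h4 : (P.map (evHom v)).roots =
        Multiset.replicate (P.map (evHom v)).natDegree 0 := by
      rw [Multiset.eq_replicate]
      exact ⟨(hs.natDegree_eq_card_roots).symm, hroots⟩
    conv_lhs => rw [h3, h4]
    rw [Multiset.map_replicate, Multiset.prod_replicate, map_zero, sub_zero]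
  have h3 := eval_lift hP 1
  rw [h2, eval_pow, eval_X, one_pow, map_one, sub_sub_cancel] at h3
  exact h3.symm

/-- multiplicities of roots of the reduced characteristic polynomial. -/
theorem pow_dvd_of_special {v : Place K F} {g : F'}
    (hmem : ∀ w ∈ v.fiber F', g ∈ w.toValuationSubring)
    (hg : ∀ w ∈ v.fiber F', g = algebraMap K F' (ev w g) ∨
      (w.ramificationIndex F : ℤ) ≤ w.ord (g - algebraMap K F' (ev w g)))
    {P : v.toValuationSubring[X]} (hP : P.map (algebraMap v.toValuationSubring F) = chi F g)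
    [DecidableEq K] (a : K) :
    (X - C a) ^ (∑ w ∈ v.fiber F', if ev w g = a then w.ramificationIndex F else 0) ∣
      P.map (evHom v) := by
  obtain ⟨t, ht⟩ := RR.exists_ord_eq_one v
  have ht0 : t ≠ 0 := by
    rintro rfl
    rw [v.ord_zero] at ht
    exact zero_ne_one ht
  have htm : t ∈ v.toValuationSubring := RR.mem_of_ord_nonneg v (by rw [ht]; norm_num)
  set m : ℕ := ∑ w ∈ v.fiber F', if ev w g = a then w.ramificationIndex F else 0 with hm
  have htw : ∀ w ∈ v.fiber F', w.ord (algebraMap F F' t) = w.ramificationIndex F := by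
    intro w hw
    rw [w.ord_restrict (F := F), Place.mem_fiber.mp hw, ht, mul_one]
  have ht0' : algebraMap F F' t ≠ 0 := by simpa using ht0
  -- the Taylor expansion at `a`
  set Q : v.toValuationSubring[X] := P.comp (X + C ⟨algebraMap K F a, v.algebraMap_mem' a⟩) with hQ
  have hQmap : (P.map (evHom v)).comp (X + C a) = Q.map (evHom v) := by
    rw [hQ, Polynomial.map_comp, Polynomial.map_add, map_X, map_C, evHom_algebraMap]
  rw [X_sub_C_pow_dvd_iff, hQmap, X_pow_dvd_iff]
  intro d hd
  rw [coeff_map, evHom_eq_zero_iff]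
  -- the rescaled polynomial over `F`
  have hval : ∀ z : K, (C (t ^ m)⁻¹ * (Q.map (algebraMap v.toValuationSubring F)).comp
      (C t * X)).eval (algebraMap K F z) ∈ v.toValuationSubring := by
    intro z
    have h1 : (C (t ^ m)⁻¹ * (Q.map (algebraMap v.toValuationSubring F)).comp
        (C t * X)).eval (algebraMap K F z) =
        (t ^ m)⁻¹ * Algebra.norm F (algebraMap F F' (t * algebraMap K F z + algebraMap K F a) - g) := by
      rw [eval_mul, eval_C, eval_comp, eval_mul, eval_C, eval_X, hQ, Polynomial.map_comp,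
        Polynomial.map_add, map_X, map_C, eval_comp, eval_add, eval_X, eval_C, hP, chi_eval]
      rfl
    rw [h1]
    rcases eq_or_ne (algebraMap F F' (t * algebraMap K F z + algebraMap K F a) - g) 0 with h0 | h0
    · rw [h0, Algebra.norm_zero, mul_zero]
      exact zero_mem _
    apply RR.mem_of_ord_nonneg
    rw [v.ord_mul (inv_ne_zero (pow_ne_zero m ht0)) (Algebra.norm_ne_zero_iff.mpr h0), v.ord_inv,
      RR.ord_pow, ht, mul_one, ord_norm v h0, hm, Nat.cast_sum]
    have h2 : ∑ w ∈ v.fiber F', ((if ev w g = a then w.ramificationIndex F else 0 : ℕ) : ℤ) ≤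
        ∑ w ∈ v.fiber F',
          w.ord (algebraMap F F' (t * algebraMap K F z + algebraMap K F a) - g) := by
      refine Finset.sum_le_sum fun w hw => ?_
      split_ifs with hwa
      · have h3 : algebraMap F F' (t * algebraMap K F z + algebraMap K F a) - g =
            algebraMap F F' t * algebraMap K F' z - (g - algebraMap K F' (ev w g)) := by
          rw [hwa, map_add, map_mul, ← IsScalarTower.algebraMap_apply,
            ← IsScalarTower.algebraMap_apply]
          ring
        rw [h3] at h0 ⊢
        have h4 : algebraMap F F' t * algebraMap K F' z = 0 ∨ (w.ramificationIndex F : ℤ) ≤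
            w.ord (algebraMap F F' t * algebraMap K F' z) := by
          rcases eq_or_ne z 0 with hz | hz
          · left; rw [hz, map_zero, mul_zero]
          · right
            rw [w.ord_mul ht0' (by simpa using hz), RR.ord_algebraMap, add_zero, htw w hw]
        rcases h4 with h4 | h4
        · rw [h4, zero_sub] at h0 ⊢
          rw [RR.ord_neg]
          rcases hg w hw with h5 | h5
          · exact absurd (by rw [← h5, sub_self, neg_zero]) h0
          · exact h5
        · rcases hg w hw with h5 | h5
          · rw [← h5, sub_self, sub_zero]; exact h4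
          · rw [sub_eq_add_neg] at h0 ⊢
            refine Fermat.FF.ord_add_ge w h0 (Or.inr h4) (Or.inr ?_)
            rw [RR.ord_neg]
            exact h5
      · rw [Nat.cast_zero]
        refine RR.ord_nonneg_of_mem w (sub_mem ?_ (hmem w hw))
        refine mem_of_fiber (v := v) ?_ hw
        exact add_mem (mul_mem htm (v.algebraMap_mem' z)) (v.algebraMap_mem' a)
    linarith
  have hcoeff := coeff_mem_of_eval v _ hval d
  rw [coeff_C_mul, comp_C_mul_X_coeff, coeff_map] at hcoeff
  change (t ^ m)⁻¹ * (((Q.coeff d : v.toValuationSubring) : F) * t ^ d) ∈ _ at hcoeff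
  rw [Fermat.FF.val_lt_one_iff]
  rcases eq_or_ne ((Q.coeff d : v.toValuationSubring) : F) 0 with h0 | h0
  · exact Or.inl h0
  right
  have h1 := RR.ord_nonneg_of_mem v hcoeff
  rw [v.ord_mul (inv_ne_zero (pow_ne_zero m ht0)) (mul_ne_zero h0 (pow_ne_zero d ht0)),
    v.ord_mul h0 (pow_ne_zero d ht0), v.ord_inv, RR.ord_pow, RR.ord_pow, ht, mul_one, mul_one] at h1
  have hd' : (d : ℤ) < m := by exact_mod_cast hd
  linarith

/-- Step 2: the norm of a function close to constants at all places above `v`. -/
theorem ev_norm_of_special {v : Place K F} {g : F'}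
    (hmem : ∀ w ∈ v.fiber F', g ∈ w.toValuationSubring)
    (hg : ∀ w ∈ v.fiber F', g = algebraMap K F' (ev w g) ∨
      (w.ramificationIndex F : ℤ) ≤ w.ord (g - algebraMap K F' (ev w g))) :
    ev v (Algebra.norm F g) = ∏ w ∈ v.fiber F', ev w g ^ w.ramificationIndex F := by
  classical
  obtain ⟨P, hmon, hdeg, hP⟩ := exists_lift v hmem
  have hmonP : (P.map (evHom v)).Monic := hmon.map _
  have hs : (P.map (evHom v)).Splits := IsAlgClosed.splits _
  set M : Multiset K := ∑ w ∈ v.fiber F', w.ramificationIndex F • ({ev w g} : Multiset K) with hM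
  have hcard : M.card = Module.finrank F F' := by
    rw [hM, Multiset.card_sum, ← sum_ram F' v]
    refine Finset.sum_congr rfl fun w _ => ?_
    rw [Multiset.card_nsmul, Multiset.card_singleton, mul_one]
  have hMle : M ≤ (P.map (evHom v)).roots := by
    rw [Multiset.le_iff_count]
    intro a
    rw [count_roots, le_rootMultiplicity_iff hmonP.ne_zero]
    have h1 : M.count a = ∑ w ∈ v.fiber F', if ev w g = a then w.ramificationIndex F else 0 := by
      rw [hM, Multiset.count_sum']
      refine Finset.sum_congr rfl fun w _ => ?_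
      rw [Multiset.count_nsmul, Multiset.count_singleton]
      split_ifs with h2 h3 h3
      · rw [mul_one]
      · exact absurd h2.symm h3
      · exact absurd h3.symm h2
      · rw [mul_zero]
    rw [h1]
    exact pow_dvd_of_special hmem hg hP a
  have hMeq : M = (P.map (evHom v)).roots := by
    refine Multiset.eq_of_le_of_card_le hMle ?_
    rw [hcard, ← hs.natDegree_eq_card_roots, hmon.natDegree_map, hdeg]
  have h1 := eval_lift hP 0
  rw [map_zero, zero_sub, hs.eq_prod_roots_of_monic hmonP, ← hMeq, eval_multiset_prod,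
    Multiset.map_map] at h1
  have h2 : (M.map (eval 0 ∘ fun a => X - C a)) = M.map fun a => -a := by
    refine Multiset.map_congr rfl fun a _ => ?_
    simp
  have h3 : (M.map fun a => -a).prod = (-1) ^ Module.finrank F F' * M.prod := by
    rw [← hcard]
    exact Multiset.prod_map_neg M
  have h4 : Algebra.norm F (-g) = algebraMap K F ((-1) ^ Module.finrank F F') * Algebra.norm F g := by
    have : -g = algebraMap F F' (-1) * g := by rw [map_neg, map_one]; ring
    rw [this, map_mul, Algebra.norm_algebraMap, map_pow, map_neg, map_one]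
  rw [h2, h3, h4, ev_mul (v.algebraMap_mem' _) (norm_mem hmem), ev_algebraMap] at h1
  have h5 : M.prod = ev v (Algebra.norm F g) :=
    mul_left_cancel₀ (pow_ne_zero _ (neg_ne_zero.mpr one_ne_zero)) h1
  rw [← h5, hM, Multiset.prod_sum]
  refine Finset.prod_congr rfl fun w _ => ?_
  rw [Multiset.prod_nsmul, Multiset.prod_singleton]

/-- **Values of norms.** -/
theorem ev_norm {v : Place K F} {g : F'} (hg : ∀ w ∈ v.fiber F', w.ord g = 0) (hg0 : g ≠ 0) :
    ev v (Algebra.norm F g) = ∏ w ∈ v.fiber F', ev w g ^ w.ramificationIndex F := by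
  classical
  obtain ⟨g₁, hg₁⟩ := RR.weak_approximation (v.fiber F') (fun w => algebraMap K F' (ev w g))
    (1 + ∑ w ∈ v.fiber F', (w.ramificationIndex F : ℤ))
  have hle : ∀ w ∈ v.fiber F', (w.ramificationIndex F : ℤ) ≤
      ∑ w ∈ v.fiber F', (w.ramificationIndex F : ℤ) := fun w hw =>
    Finset.single_le_sum (f := fun w => (w.ramificationIndex F : ℤ)) (fun _ _ => by positivity) hw
  have hmem : ∀ w ∈ v.fiber F', g₁ ∈ w.toValuationSubring := by
    intro w hw
    have h1 : g₁ = algebraMap K F' (ev w g) + (g₁ - algebraMap K F' (ev w g)) := by ring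
    rw [h1]
    refine add_mem (w.algebraMap_mem' _) ?_
    rcases hg₁ w hw with h2 | h2
    · rw [h2]; exact zero_mem _
    · apply RR.mem_of_ord_nonneg
      have := hle w hw
      omega
  have hev : ∀ w ∈ v.fiber F', ev w g₁ = ev w g := by
    intro w hw
    rw [ev_eq_iff (hmem w hw), Fermat.FF.val_lt_one_iff]
    rcases hg₁ w hw with h2 | h2
    · exact Or.inl h2
    · right
      have := hle w hw
      omega
  have hspecial : ∀ w ∈ v.fiber F', g₁ = algebraMap K F' (ev w g₁) ∨
      (w.ramificationIndex F : ℤ) ≤ w.ord (g₁ - algebraMap K F' (ev w g₁)) := by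
    intro w hw
    rw [hev w hw]
    rcases hg₁ w hw with h2 | h2
    · exact Or.inl (sub_eq_zero.mp h2)
    · right
      have := hle w hw
      omega
  have hord₁ : ∀ w ∈ v.fiber F', w.ord g₁ = 0 := by
    intro w hw
    by_contra h1
    have h2 : 0 < w.ord g₁ := lt_of_le_of_ne (RR.ord_nonneg_of_mem w (hmem w hw)) (Ne.symm h1)
    have h3 := (ev_eq_zero_iff_ord (hmem w hw)).mpr (Or.inr h2)
    rw [hev w hw] at h3
    exact ev_ne_zero hg0 (hg w hw) h3
  obtain ⟨w₀, hw₀⟩ := fiber_nonempty F' v
  have hg₁0 : g₁ ≠ 0 := by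
    rintro rfl
    have h1 := hev w₀ hw₀
    rw [ev_zero] at h1
    exact ev_ne_zero hg0 (hg w₀ hw₀) h1.symm
  have hordu : ∀ w ∈ v.fiber F', w.ord (g / g₁) = 0 := by
    intro w hw
    rw [RR.ord_div w hg0 hg₁0, hg w hw, hord₁ w hw, sub_zero]
  have h1 : ev v (Algebra.norm F (g / g₁)) = 1 := by
    refine ev_norm_of_one hordu fun w hw => ?_
    rw [div_eq_mul_inv, ev_mul (mem_of_ord_eq (hg w hw)) (mem_of_ord_eq (by
      rw [w.ord_inv, hord₁ w hw, neg_zero])), ev_inv hg₁0 (hord₁ w hw), hev w hw,
      mul_inv_cancel₀ (ev_ne_zero hg0 (hg w hw))]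
  have h2 := ev_norm_of_special hmem hspecial
  have h3 : Algebra.norm F g = Algebra.norm F (g / g₁) * Algebra.norm F g₁ := by
    rw [← map_mul, div_mul_cancel₀ _ hg₁0]
  rw [h3, ev_mul (norm_mem fun w hw => mem_of_ord_eq (hordu w hw)) (norm_mem hmem), h1, one_mul, h2]
  exact Finset.prod_congr rfl fun w hw => by rw [hev w hw]

theorem disj_sum {ι : Type*} {f : F} {s : Finset ι} {D : ι → Divisor K F}
    (h : ∀ i ∈ s, Disj f (D i)) : Disj f (∑ i ∈ s, D i) := by
  classical
  induction s using Finset.induction_on with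
  | empty => intro P hP; simp at hP
  | insert i s hi ih =>
    rw [Finset.sum_insert hi]
    exact (h i (Finset.mem_insert_self i s)).add (ih fun j hj => h j (Finset.mem_insert_of_mem hj))

theorem evalDiv_sum {ι : Type*} {f : F} (hf0 : f ≠ 0) {s : Finset ι} {D : ι → Divisor K F}
    (h : ∀ i ∈ s, Disj f (D i)) : evalDiv f (∑ i ∈ s, D i) = ∏ i ∈ s, evalDiv f (D i) := by
  classical
  induction s using Finset.induction_on with
  | empty => simp
  | insert i s hi ih =>
    rw [Finset.sum_insert hi, Finset.prod_insert hi, evalDiv_add hf0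
      (h i (Finset.mem_insert_self i s)) (disj_sum fun j hj => h j (Finset.mem_insert_of_mem hj)),
      ih fun j hj => h j (Finset.mem_insert_of_mem hj)]

theorem disj_single {f : F} {v : Place K F} (h : v.ord f = 0) (n : ℤ) :
    Disj f (Finsupp.single v n) := by
  intro w hw
  rw [Finsupp.single_apply_ne_zero] at hw
  rw [hw.1, h]

theorem ord_eq_zero_of_disj_pullback {g : F'} {D : Divisor K F} (hg : Disj g (D.pullback F'))
    {v : Place K F} (hv : D v ≠ 0) {w : Place K F'} (hw : w ∈ v.fiber F') : w.ord g = 0 := by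
  apply hg
  rw [Divisor.pullback_apply, Place.mem_fiber.mp hw]
  have := w.ramificationIndex_pos (F := F)
  exact mul_ne_zero (by exact_mod_cast this.ne') hv

theorem disj_norm {g : F'} (hg0 : g ≠ 0) {D : Divisor K F} (hg : Disj g (D.pullback F')) :
    Disj (Algebra.norm F g) D := by
  intro v hv
  rw [ord_norm v hg0]
  exact Finset.sum_eq_zero fun w hw => ord_eq_zero_of_disj_pullback hg hv hw

/-- `g(π^* D) = (N g)(D)`. -/
theorem evalDiv_pullback {g : F'} (hg0 : g ≠ 0) {D : Divisor K F} (hg : Disj g (D.pullback F')) :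
    evalDiv g (D.pullback F') = evalDiv (Algebra.norm F g) D := by
  have h1 : D.pullback F' = ∑ v ∈ D.support, ∑ w ∈ v.fiber F',
      Finsupp.single w (D v * w.ramificationIndex F) := by
    conv_lhs => rw [← D.sum_single]
    rw [Finsupp.sum, map_sum]
    exact Finset.sum_congr rfl fun v _ => Divisor.pullback_single v (D v)
  have h2 : ∀ v ∈ D.support, ∀ w ∈ v.fiber F', w.ord g = 0 := fun v hv w hw =>
    ord_eq_zero_of_disj_pullback hg (Finsupp.mem_support_iff.mp hv) hw
  rw [h1, evalDiv_sum hg0 (fun v hv => disj_sum fun w hw => disj_single (h2 v hv w hw) _), evalDiv,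
    Finsupp.prod]
  refine Finset.prod_congr rfl fun v hv => ?_
  rw [evalDiv_sum hg0 (fun w hw => disj_single (h2 v hv w hw) _), ev_norm (h2 v hv) hg0,
    ← Finset.prod_zpow]
  refine Finset.prod_congr rfl fun w _ => ?_
  rw [evalDiv_single, mul_comm, zpow_mul, zpow_natCast]

/-- `f(π_* D') = (π^* f)(D')`. -/
theorem evalDiv_pushforward {f : F} (hf0 : f ≠ 0) {D' : Divisor K F'}
    (hf : Disj (algebraMap F F' f) D') :
    evalDiv f (D'.pushforward F) = evalDiv (algebraMap F F' f) D' := by
  have h0 : ∀ w ∈ D'.support, (w.restrict F).ord f = 0 := by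
    intro w hw
    have h1 := hf w (Finsupp.mem_support_iff.mp hw)
    rw [w.ord_restrict (F := F)] at h1
    have := w.ramificationIndex_pos (F := F)
    exact (mul_eq_zero.mp h1).resolve_left (by exact_mod_cast this.ne')
  have h1 : D'.pushforward F = ∑ w ∈ D'.support, Finsupp.single (w.restrict F) (D' w) := by
    conv_lhs => rw [← D'.sum_single]
    rw [Finsupp.sum, map_sum]
    refine Finset.sum_congr rfl fun w _ => ?_
    rw [Divisor.pushforward_single, inertiaDeg_one, Nat.cast_one, mul_one]
  rw [h1, evalDiv_sum hf0 (fun w hw => disj_single (h0 w hw) _), evalDiv, Finsupp.prod]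
  refine Finset.prod_congr rfl fun w hw => ?_
  rw [evalDiv_single, ev_algebraMap_of_mem (mem_of_ord_eq (h0 w hw)) rfl]

theorem disj_pushforward {f : F} {D' : Divisor K F'}
    (hf : Disj (algebraMap F F' f) D') : Disj f (D'.pushforward F) := by
  classical
  intro v hv
  rw [Divisor.pushforward_apply] at hv
  obtain ⟨w, hw, hne⟩ := Finset.exists_ne_zero_of_sum_ne_zero hv
  have hwv : w.restrict F = v := by
    by_contra h
    exact hne (if_neg h)
  have h1 := hf w (Finsupp.mem_support_iff.mp hw)
  rw [w.ord_restrict (F := F), hwv] at h1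
  have := w.ramificationIndex_pos (F := F)
  exact (mul_eq_zero.mp h1).resolve_left (by exact_mod_cast this.ne')

end Inst

section Along

open Fermat.Agent.Jan.HeckeNorm

variable {K F F' : Type*} [Field K] [Field F] [Field F'] [Algebra K F] [Algebra K F']
  [IsAlgClosed K] [RR.FunctionField K F] [RR.FunctionField K F']

/-- `g(π^* D) = (N g)(D)`, along `φ`. -/
theorem evalDiv_pullbackAlong (φ : F →ₐ[K] F') (hφ : φ.toRingHom.IsIntegral)
    (hfin : FiniteAlong K φ) {g : F'} (hg0 : g ≠ 0) {D : Divisor K F}
    (hg : Disj g (Divisor.pullbackAlong φ hφ D)) :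
    evalDiv g (Divisor.pullbackAlong φ hφ D) = evalDiv (normAlong φ g) D := by
  letI := algebraAlong φ
  haveI := isScalarTower_along φ
  haveI := isIntegral_along φ hφ
  haveI : FiniteDimensional F F' := hfin
  exact evalDiv_pullback hg0 hg

theorem disj_normAlong (φ : F →ₐ[K] F') (hφ : φ.toRingHom.IsIntegral)
    (hfin : FiniteAlong K φ) {g : F'} (hg0 : g ≠ 0) {D : Divisor K F}
    (hg : Disj g (Divisor.pullbackAlong φ hφ D)) : Disj (normAlong φ g) D := by
  letI := algebraAlong φ
  haveI := isScalarTower_along φ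
  haveI := isIntegral_along φ hφ
  haveI : FiniteDimensional F F' := hfin
  exact disj_norm hg0 hg

/-- `f(π_* D') = (π^* f)(D')`, along `φ`. -/
theorem evalDiv_pushforwardAlong (φ : F →ₐ[K] F') (hφ : φ.toRingHom.IsIntegral)
    (hfin : FiniteAlong K φ) {f : F} (hf0 : f ≠ 0) {D' : Divisor K F'} (hf : Disj (φ f) D') :
    evalDiv f (Divisor.pushforwardAlong φ hφ D') = evalDiv (φ f) D' := by
  letI := algebraAlong φ
  haveI := isScalarTower_along φ
  haveI := isIntegral_along φ hφ
  haveI : FiniteDimensional F F' := hfin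
  exact evalDiv_pushforward hf0 hf

theorem disj_pushforwardAlong (φ : F →ₐ[K] F') (hφ : φ.toRingHom.IsIntegral)
    (hfin : FiniteAlong K φ) {f : F} {D' : Divisor K F'} (hf : Disj (φ f) D') :
    Disj f (Divisor.pushforwardAlong φ hφ D') := by
  letI := algebraAlong φ
  haveI := isScalarTower_along φ
  haveI := isIntegral_along φ hφ
  haveI : FiniteDimensional F F' := hfin
  exact disj_pushforward hf

end Along

end Fermat.Agent.Mazur.Weil
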