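import Fermat.Agent.Mazur.Weil.Pairing
import Fermat.Agent.DR.S36.PicMap

set_option autoImplicit false
set_option linter.unusedSectionVars false
set_option linter.style.haveILetI false

/-!
# The projection formula for the Weil pairing

`weil_F (φ_* x) y = weil_F' x (φ^* y)` for a finite embedding `φ : F → F'`, and the adjoint of a
correspondence.
-/

noncomputable section

open AlgebraicCurve WithZero

namespace Fermat.Agent.Mazur.Weil

open Fermat.Agent.Jan.HeckeNorm Fermat.Agent.DR.S36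

variable {K F F' : Type*} [Field K] [Field F] [Field F'] [Algebra K F] [Algebra K F']
  [IsAlgClosed K] [RR.FunctionField K F] [RR.FunctionField K F']
  (φ : F →ₐ[K] F') (hφ : φ.toRingHom.IsIntegral)

theorem pullbackAlong_divOf (f : F) :
    Divisor.pullbackAlong φ hφ (RR.divOf (K := K) f) = RR.divOf (φ f) := by
  ext w
  rw [RR.divOf_apply]
  exact pullbackAlong_eq_ord φ hφ (fun v => RR.divOf_apply f v) w

theorem pushforwardAlong_divOf (hfin : FiniteAlong K φ) (hN : NormFormulaAlong K φ hfin) {f : F'}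
    (hf : f ≠ 0) :
    Divisor.pushforwardAlong φ hφ (RR.divOf (K := K) f) = RR.divOf (normAlong φ f) := by
  ext v
  rw [RR.divOf_apply]
  exact pushforwardAlong_eq_ord φ hφ hfin hN hf (fun w => RR.divOf_apply f w) v

variable {n : ℕ} {x : Pic0 K F'} {y : Pic0 K F}

/-- pull-back of a representative -/
def Rep.pull (hFI : FundamentalIdentityAlong K φ hφ) (s : Rep n y) :
    Rep n (picPull φ hφ hFI y) where
  D := degZeroPull φ hφ hFI s.D
  f := φ s.f
  f_ne := (map_ne_zero φ).mpr s.f_ne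
  mk_eq := by rw [← picPull_mk, s.mk_eq]
  div_eq := by
    rw [coe_degZeroPull, ← map_nsmul, s.div_eq, pullbackAlong_divOf]

/-- push-forward of a representative -/
def Rep.push (hfin : FiniteAlong K φ) (hN : NormFormulaAlong K φ hfin) (r : Rep n x) :
    Rep n (picPush φ hφ hfin hN x) where
  D := degZeroPush φ hφ r.D
  f := normAlong φ r.f
  f_ne := normAlong_ne_zero φ hfin r.f_ne
  mk_eq := by rw [← picPush_mk φ hφ hfin hN, r.mk_eq]
  div_eq := by
    rw [coe_degZeroPush, ← map_nsmul, r.div_eq, pushforwardAlong_divOf φ hφ hfin hN r.f_ne]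

/-- **The projection formula** for the Weil pairing. -/
theorem weil_push (hFI : FundamentalIdentityAlong K φ hφ) (hfin : FiniteAlong K φ)
    (hN : NormFormulaAlong K φ hfin) (hx : n • x = 0) (hy : n • y = 0) :
    weil n (picPush φ hφ hfin hN x) y = weil n x (picPull φ hφ hFI y) := by
  classical
  obtain ⟨r, -⟩ := exists_rep hx ∅
  obtain ⟨s, hs⟩ := exists_rep hy
    ((r.D : Divisor K F').support.image fun w => w.restrictAlong φ hφ)
  have h0 : ∀ w, (r.D : Divisor K F') w ≠ 0 → (s.D : Divisor K F) (w.restrictAlong φ hφ) = 0 :=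
    fun w hw => hs _ (Finset.mem_image_of_mem _ (Finsupp.mem_support_iff.mpr hw))
  have h1 : DisjRep r (s.pull φ hφ hFI) := by
    intro w hw
    change Divisor.pullbackAlong φ hφ (s.D : Divisor K F) w = 0
    rw [Divisor.pullbackAlong_apply, h0 w hw, mul_zero]
  have h2 : DisjRep (r.push φ hφ hfin hN) s := by
    intro v hv
    by_contra hv0
    refine hv (Fermat.Agent.Jan.PushPull.pushforwardAlong_apply_eq_zero φ hφ _ v fun w hw => ?_)
    by_contra hw0
    exact hv0 (by rw [← hw]; exact h0 w hw0)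
  rw [weil_eq_val _ _ h2, weil_eq_val _ _ h1, val, val]
  congr 1
  · exact (evalDiv_pullbackAlong φ hφ hfin r.f_ne h1.disj).symm
  · exact evalDiv_pushforwardAlong φ hφ hfin s.f_ne h1.disj'

/-- the projection formula, other side -/
theorem weil_pull (hFI : FundamentalIdentityAlong K φ hφ) (hfin : FiniteAlong K φ)
    (hN : NormFormulaAlong K φ hfin) (hx : n • x = 0) (hy : n • y = 0) :
    weil n (picPull φ hφ hFI y) x = weil n y (picPush φ hφ hfin hN x) := by
  rw [weil_swap n x, weil_swap n (picPush φ hφ hfin hN x), weil_push φ hφ hFI hfin hN hx hy]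

omit [IsAlgClosed K] [RR.FunctionField K F] in
theorem correspondence_eq_push_pull (ψ : F →ₐ[K] F') (hψ : ψ.toRingHom.IsIntegral)
    (hFI : FundamentalIdentityAlong K φ hφ) (hfin : FiniteAlong K ψ)
    (hN : NormFormulaAlong K ψ hfin) (y : Pic0 K F) :
    Pic0.correspondence φ ψ hφ hψ hFI hfin hN y =
      picPush ψ hψ hfin hN (picPull φ hφ hFI y) := by
  obtain ⟨D, rfl⟩ := Pic0.mk_surjective y
  rfl

/-- **The adjoint of a correspondence** `ψ_* φ^*` is `φ_* ψ^*`. -/
theorem weil_correspondence (ψ : F →ₐ[K] F') (hψ : ψ.toRingHom.IsIntegral)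
    (hFI : FundamentalIdentityAlong K φ hφ) (hfin : FiniteAlong K φ)
    (hN : NormFormulaAlong K φ hfin) (hFI' : FundamentalIdentityAlong K ψ hψ)
    (hfin' : FiniteAlong K ψ) (hN' : NormFormulaAlong K ψ hfin') {y z : Pic0 K F}
    (hy : n • y = 0) (hz : n • z = 0) :
    weil n (Pic0.correspondence φ ψ hφ hψ hFI hfin' hN' y) z =
      weil n y (Pic0.correspondence ψ φ hψ hφ hFI' hfin hN z) := by
  rw [correspondence_eq_push_pull, correspondence_eq_push_pull,
    weil_push ψ hψ hFI' hfin' hN' (by rw [← map_nsmul, hy, map_zero]) hz,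
    weil_pull φ hφ hFI hfin hN (by rw [← map_nsmul, hz, map_zero]) hy]

section EquivAlong

variable {K F₁ F₂ : Type*} [Field K] [Field F₁] [Field F₂] [Algebra K F₁] [Algebra K F₂]
  (w : F₁ ≃ₐ[K] F₂)

theorem isIntegral_equiv : (w : F₁ →ₐ[K] F₂).toRingHom.IsIntegral :=
  RingHom.isIntegral_of_surjective _ w.surjective

theorem finiteAlong_equiv : FiniteAlong K (w : F₁ →ₐ[K] F₂) := by
  letI := algebraAlong (w : F₁ →ₐ[K] F₂)
  exact Module.Finite.of_surjective (Algebra.linearMap F₁ F₂) w.surjective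

theorem finrankAlong_equiv : finrankAlong K (w : F₁ →ₐ[K] F₂) = 1 := by
  letI := algebraAlong (w : F₁ →ₐ[K] F₂)
  have e : F₁ ≃ₗ[F₁] F₂ := LinearEquiv.ofBijective (Algebra.linearMap F₁ F₂) w.bijective
  exact (LinearEquiv.finrank_eq e).symm.trans (Module.finrank_self F₁)

end EquivAlong

section Swap

variable (ψ : F →ₐ[K] F') (hψ : ψ.toRingHom.IsIntegral) (w : F' ≃ₐ[K] F')

omit [RR.FunctionField K F] in
/-- If an automorphism of `F'` swaps `φ` and `ψ`, the two correspondences coincide. -/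
theorem correspondence_swap_div (h1 : ∀ x, w (φ x) = ψ x) (h2 : ∀ x, w (ψ x) = φ x)
    (D : Divisor K F) :
    Divisor.correspondence φ ψ hφ hψ D = Divisor.correspondence ψ φ hψ hφ D := by
  have hw : (w : F' →ₐ[K] F').toRingHom.IsIntegral := isIntegral_equiv w
  have hfinw : FiniteAlong K (w : F' →ₐ[K] F') := finiteAlong_equiv w
  haveI : Fermat.FF.IsFF1 K F' := isFF1
  have hFIw := Fermat.FF.Rel.fundamentalIdentityAlong (w : F' →ₐ[K] F') hw hfinw
  have e1 : (w : F' →ₐ[K] F').comp ψ = φ := AlgHom.ext h2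
  have e2 : (w : F' →ₐ[K] F').comp φ = ψ := AlgHom.ext h1
  have hdeg : ∀ v : Place K F', v.deg = 1 := fun v => RR.deg_eq_one v
  have hc1 : ((w : F' →ₐ[K] F').comp ψ).toRingHom.IsIntegral := by rw [e1]; exact hφ
  have hc2 : ((w : F' →ₐ[K] F').comp φ).toRingHom.IsIntegral := by rw [e2]; exact hψ
  have hfr : finrankAlong K (w : F' →ₐ[K] F') = 1 := finrankAlong_equiv w
  rw [Divisor.correspondence_apply, Divisor.correspondence_apply,
    Fermat.Agent.Jan.PushPull.pullbackAlong_congr e1.symm hφ hc1,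
    Fermat.Agent.Jan.PushPull.pullbackAlong_comp ψ (w : F' →ₐ[K] F') hψ hw hc1,
    Fermat.Agent.Jan.PushPull.pushforwardAlong_congr e2.symm hψ hc2,
    Fermat.Agent.Jan.PushPull.pushforwardAlong_comp φ (w : F' →ₐ[K] F') hφ hw hc2 hdeg,
    pushforward_pullback (w : F' →ₐ[K] F') hw hFIw hdeg hdeg, hfr, one_smul]

omit [RR.FunctionField K F] in
theorem correspondence_swap (h1 : ∀ x, w (φ x) = ψ x) (h2 : ∀ x, w (ψ x) = φ x)
    (hFI : FundamentalIdentityAlong K φ hφ) (hfin : FiniteAlong K φ)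
    (hN : NormFormulaAlong K φ hfin) (hFI' : FundamentalIdentityAlong K ψ hψ)
    (hfin' : FiniteAlong K ψ) (hN' : NormFormulaAlong K ψ hfin') (y : Pic0 K F) :
    Pic0.correspondence φ ψ hφ hψ hFI hfin' hN' y =
      Pic0.correspondence ψ φ hψ hφ hFI' hfin hN y := by
  obtain ⟨D, rfl⟩ := Pic0.mk_surjective y
  rw [Pic0.correspondence_mk, Pic0.correspondence_mk]
  refine congrArg Pic0.mk (Subtype.ext ?_)
  exact correspondence_swap_div φ hφ ψ hψ w h1 h2 D

end Swap

end Fermat.Agent.Mazur.Weil
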