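import Fermat.Agent.Mazur.Weil.NormEval
import Fermat.Agent.AV.LineOrd
import Fermat.Agent.RR.OfFF1

set_option autoImplicit false
set_option linter.unusedSectionVars false
set_option linter.style.haveILetI false

/-!
# Weil reciprocity

`f(div g) = g(div f)` for functions `f`, `g` with disjoint divisors on a curve over an
algebraically closed field (`weil_reciprocity`).
-/

noncomputable section

open AlgebraicCurve WithZero Polynomial IntermediateField

namespace Fermat.Agent.Mazur.Weil

open Fermat.FF Fermat.FF.Gen Fermat.Agent.AV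

section Poly

variable {K F : Type*} [Field K] [Field F] [Algebra K F] [IsAlgClosed K] [RR.FunctionField K F]

theorem aeval_mem {P : Place K F} {t : F} (ht : t ∈ P.toValuationSubring) (q : K[X]) :
    aeval t q ∈ P.toValuationSubring ∧ ev P (aeval t q) = q.eval (ev P t) := by
  induction q using Polynomial.induction_on' with
  | add p q hp hq =>
    rw [map_add, eval_add, ← hp.2, ← hq.2]
    exact ⟨add_mem hp.1 hq.1, ev_add hp.1 hq.1⟩
  | monomial n a =>
    rw [aeval_monomial, eval_monomial, ← ev_pow ht, ← ev_algebraMap P a]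
    refine ⟨mul_mem (P.algebraMap_mem' _) (pow_mem ht n), ?_⟩
    rw [ev_mul (P.algebraMap_mem' _) (pow_mem ht n), ev_algebraMap]

/-- an effective divisor of degree one is a point. -/
theorem exists_single_of_degree_one {E : Divisor K F} (hE : 0 ≤ E) (hd : Divisor.degree E = 1) :
    ∃ P, E = Finsupp.single P 1 := by
  classical
  obtain ⟨P, hP⟩ : ∃ P, E P ≠ 0 := by
    by_contra h
    push Not at h
    have : E = 0 := Finsupp.ext h
    rw [this, map_zero] at hd
    exact zero_ne_one hd
  have hP1 : 1 ≤ E P := by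
    have := hE P
    simp only [Finsupp.coe_zero, Pi.zero_apply] at this
    omega
  refine ⟨P, ?_⟩
  have h1 : (0 : Divisor K F) ≤ E - Finsupp.single P 1 := by
    intro Q
    rw [Finsupp.sub_apply, Finsupp.single_apply]
    have := hE Q
    simp only [Finsupp.coe_zero, Pi.zero_apply] at this ⊢
    split_ifs with h
    · rw [← h]; omega
    · omega
  have h2 : Divisor.degree (E - Finsupp.single P 1) = 0 := by
    rw [map_sub, hd, RR.degree_single_one, sub_self]
  have h3 := RR.eq_of_le_of_degree_le h1 (by rw [h2, map_zero])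
  exact (sub_eq_zero.mp h3.symm)

end Poly

section Line

variable {K F : Type*} [Field K] [Field F] [Algebra K F] [IsAlgClosed K] [RR.FunctionField K F]
  {y : F} (hy : Transcendental K y)

include hy in
theorem functionField_adjoin : RR.FunctionField K K⟮y⟯ := by
  have := isFF1_adjoin hy
  exact RR.functionField_of_isFF1 K K⟮y⟯

include hy in
theorem transcendental_gen : Transcendental K (AdjoinSimple.gen K y) := by
  rw [← transcendental_algebraMap_iff (algebraMap K⟮y⟯ F).injective]
  exact hy

/-- The divisor of the coordinate on the line. -/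
theorem exists_divOf_gen : haveI := functionField_adjoin hy
    ∃ P : Place K K⟮y⟯, P.ord (AdjoinSimple.gen K y) = -1 ∧
      RR.divOf (AdjoinSimple.gen K y) =
        Finsupp.single (linePlace hy 0) (1 : ℤ) - Finsupp.single P 1 := by
  classical
  haveI := functionField_adjoin hy
  haveI : IsFF1 K F := isFF1
  haveI := Fermat.FF.IsFF1.finiteDimensional_adjoin hy
  set z := AdjoinSimple.gen K y with hz
  have hz0 : z ≠ 0 := by
    intro h0
    have := transcendental_gen hy
    rw [← hz, h0] at this
    exact this isAlgebraic_zero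
  have h0 : (linePlace hy 0).ord z = 1 := by
    have := ord_linePlace hy 0
    rwa [map_zero, sub_zero] at this
  -- the only zero of `z` is `linePlace 0`
  have hzero : ∀ v : Place K K⟮y⟯, 0 < v.ord z → v = linePlace hy 0 := by
    intro v hv
    obtain ⟨w, hw⟩ := fiber_nonempty F v
    rw [Place.mem_fiber] at hw
    rw [← hw, restrict_eq_linePlace_iff, map_zero, sub_zero, Fermat.FF.val_lt_one_iff]
    right
    have h1 : y = algebraMap K⟮y⟯ F z := rfl
    rw [h1, w.ord_restrict (F := K⟮y⟯), hw]
    have := w.ramificationIndex_pos (F := K⟮y⟯)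
    positivity
  set D : Divisor K K⟮y⟯ := Finsupp.single (linePlace hy 0) (1 : ℤ) - RR.divOf z with hD
  have hD0 : 0 ≤ D := by
    intro v
    rw [hD, Finsupp.sub_apply, RR.divOf_apply, Finsupp.single_apply]
    simp only [Finsupp.coe_zero, Pi.zero_apply]
    split_ifs with h
    · rw [← h, h0, sub_self]
    · by_contra hcon
      exact h (hzero v (by omega)).symm
  have hD1 : Divisor.degree D = 1 := by
    rw [hD, map_sub, RR.degree_divOf, RR.degree_single_one, sub_zero]
  obtain ⟨P, hP⟩ := exists_single_of_degree_one hD0 hD1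
  have hne : P ≠ linePlace hy 0 := by
    rintro rfl
    have h1 := DFunLike.congr_fun hP (linePlace hy 0)
    rw [hD, Finsupp.sub_apply, RR.divOf_apply, Finsupp.single_eq_same, h0, sub_self] at h1
    exact zero_ne_one h1
  refine ⟨P, ?_, ?_⟩
  · have h1 := DFunLike.congr_fun hP P
    rw [hD, Finsupp.sub_apply, RR.divOf_apply, Finsupp.single_eq_same,
      Finsupp.single_eq_of_ne hne] at h1
    omega
  · rw [← hP, hD]; abel

/-- Values at `0` and `∞` of a quotient of coprime polynomials. -/
theorem evalDiv_gen : haveI := functionField_adjoin hy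
    ∀ {N : K⟮y⟯} (_hN : N ≠ 0) (_hdisj : Disj N (RR.divOf (K := K) (AdjoinSimple.gen K y)))
    {r s : K[X]} (_hr : r ≠ 0) (_hs : s ≠ 0) (_hrs : IsCoprime r s)
    (_h : N * aeval (AdjoinSimple.gen K y) s = aeval (AdjoinSimple.gen K y) r),
    r.natDegree = s.natDegree ∧ r.eval 0 ≠ 0 ∧ s.eval 0 ≠ 0 ∧
    evalDiv N (RR.divOf (K := K) (AdjoinSimple.gen K y)) =
      (r.eval 0 / s.eval 0) / (r.leadingCoeff / s.leadingCoeff) := by
  classical
  haveI := functionField_adjoin hy
  intro N hN hdisj r s hr hs hrs h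
  obtain ⟨P, hP, hdiv⟩ := exists_divOf_gen hy
  set z := AdjoinSimple.gen K y with hz
  have hzt := transcendental_gen hy
  have hz0 : z ≠ 0 := by
    intro h0
    rw [← hz, h0] at hzt
    exact hzt isAlgebraic_zero
  have h0 : (linePlace hy 0).ord z = 1 := by
    have := ord_linePlace hy 0
    rwa [map_zero, sub_zero] at this
  have hPne : P ≠ linePlace hy 0 := by
    rintro rfl
    rw [h0] at hP
    norm_num at hP
  have hN0 : (linePlace hy 0).ord N = 0 := hdisj _ (by
    rw [RR.divOf_apply, h0]; exact one_ne_zero)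
  have hNP : P.ord N = 0 := hdisj _ (by
    rw [RR.divOf_apply, hP]; norm_num)
  -- at `0`
  have hzm : z ∈ (linePlace hy 0).toValuationSubring := RR.mem_of_ord_nonneg _ (by rw [h0]; norm_num)
  have hz_ev : ev (linePlace hy 0) z = 0 :=
    (ev_eq_zero_iff_ord hzm).mpr (Or.inr (by rw [h0]; norm_num))
  have hev0 : ev (linePlace hy 0) N * s.eval 0 = r.eval 0 := by
    have h1 := congrArg (ev (linePlace hy 0)) h
    rw [ev_mul (mem_of_ord_eq hN0) (aeval_mem hzm s).1, (aeval_mem hzm s).2, (aeval_mem hzm r).2,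
      hz_ev] at h1
    exact h1
  have hs0 : s.eval 0 ≠ 0 := by
    intro h1
    rw [h1, mul_zero] at hev0
    obtain ⟨a, b, hab⟩ := hrs
    have h2 := congrArg (eval 0) hab
    rw [eval_add, eval_mul, eval_mul, h1, ← hev0, mul_zero, mul_zero, add_zero, eval_one] at h2
    exact zero_ne_one h2
  have hr0 : r.eval 0 ≠ 0 := by
    rw [← hev0]
    exact mul_ne_zero (ev_ne_zero hN hN0) hs0
  -- at `∞`
  have hzi : P.ord z⁻¹ = 1 := by rw [P.ord_inv, hP, neg_neg]
  have hzim : z⁻¹ ∈ P.toValuationSubring := RR.mem_of_ord_nonneg _ (by rw [hzi]; norm_num)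
  have hzi_ev : ev P z⁻¹ = 0 := (ev_eq_zero_iff_ord hzim).mpr (Or.inr (by rw [hzi]; norm_num))
  have hrev : ∀ q : K[X], aeval z q = aeval z⁻¹ q.reverse * z ^ q.natDegree := by
    intro q
    letI : Invertible z := invertibleOfNonzero hz0
    have h1 := eval₂_reverse_mul_pow (algebraMap K K⟮y⟯) z q
    rw [invOf_eq_inv] at h1
    exact h1.symm
  have hevrev : ∀ q : K[X], ev P (aeval z⁻¹ q.reverse) = q.leadingCoeff := by
    intro q
    rw [(aeval_mem hzim _).2, hzi_ev, ← coeff_zero_eq_eval_zero, coeff_zero_reverse]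
  have hordrev : ∀ q : K[X], q ≠ 0 → P.ord (aeval z⁻¹ q.reverse) = 0 := by
    intro q hq
    by_contra h1
    have h2 : 0 < P.ord (aeval z⁻¹ q.reverse) :=
      lt_of_le_of_ne (RR.ord_nonneg_of_mem P (aeval_mem hzim _).1) (Ne.symm h1)
    have h3 := (ev_eq_zero_iff_ord (aeval_mem hzim q.reverse).1).mpr (Or.inr h2)
    rw [hevrev] at h3
    exact hq (leadingCoeff_eq_zero.mp h3)
  have hrevne : ∀ q : K[X], q ≠ 0 → aeval z⁻¹ q.reverse ≠ 0 := by
    intro q hq h1
    have h2 := hevrev q
    rw [h1, ev_zero] at h2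
    exact hq (leadingCoeff_eq_zero.mp h2.symm)
  have h' : N * aeval z⁻¹ s.reverse * z ^ s.natDegree = aeval z⁻¹ r.reverse * z ^ r.natDegree := by
    rw [mul_assoc, ← hrev, ← hrev]; exact h
  have hdeg : r.natDegree = s.natDegree := by
    have h1 := congrArg P.ord h'
    rw [P.ord_mul (mul_ne_zero hN (hrevne s hs)) (pow_ne_zero _ hz0), P.ord_mul hN (hrevne s hs),
      P.ord_mul (hrevne r hr) (pow_ne_zero _ hz0), hordrev s hs, hordrev r hr, hNP, RR.ord_pow,
      RR.ord_pow, hP] at h1
    omega
  have hevP : ev P N * s.leadingCoeff = r.leadingCoeff := by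
    rw [hdeg] at h'
    have h1 := mul_right_cancel₀ (pow_ne_zero _ hz0) h'
    have h2 := congrArg (ev P) h1
    rwa [ev_mul (mem_of_ord_eq hNP) (aeval_mem hzim _).1, hevrev, hevrev] at h2
  refine ⟨hdeg, hr0, hs0, ?_⟩
  have hd1 : Disj N (Finsupp.single (linePlace hy 0) (1 : ℤ)) := disj_single hN0 1
  have hd2 : Disj N (Finsupp.single P (1 : ℤ)) := disj_single hNP 1
  rw [hdiv, evalDiv_sub hN hd1 hd2, evalDiv_single, evalDiv_single, zpow_one, zpow_one, ← hev0,
    ← hevP, mul_div_cancel_right₀ _ hs0, mul_div_cancel_right₀ _ (leadingCoeff_ne_zero.mpr hs)]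

end Line

section Main

variable {K F : Type*} [Field K] [Field F] [Algebra K F] [IsAlgClosed K] [RR.FunctionField K F]

theorem Disj.symm {f g : F} (h : Disj f (RR.divOf (K := K) g)) : Disj g (RR.divOf (K := K) f) := by
  intro P hP
  rw [RR.divOf_apply] at hP
  by_contra h1
  exact hP (h P (by rw [RR.divOf_apply]; exact h1))

/-- Every nonzero element of `K(y)` is a quotient of coprime polynomials. -/
theorem exists_coprime {y : F} (N : K⟮y⟯) (hN : N ≠ 0) :
    ∃ r s : K[X], r ≠ 0 ∧ s ≠ 0 ∧ IsCoprime r s ∧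
      N * aeval (AdjoinSimple.gen K y) s = aeval (AdjoinSimple.gen K y) r := by
  classical
  obtain ⟨r₀, s₀, h⟩ := (IntermediateField.mem_adjoin_simple_iff K (N : F)).mp N.2
  have hN' : (N : F) ≠ 0 := by simpa using hN
  have hs₀' : aeval y s₀ ≠ 0 := by
    intro h0
    rw [h0, div_zero] at h
    exact hN' h
  have hr₀' : aeval y r₀ ≠ 0 := by
    intro h0
    rw [h0, zero_div] at h
    exact hN' h
  have hs₀ : s₀ ≠ 0 := by rintro rfl; exact hs₀' (map_zero _)
  have hr₀ : r₀ ≠ 0 := by rintro rfl; exact hr₀' (map_zero _)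
  set d := EuclideanDomain.gcd r₀ s₀ with hd
  obtain ⟨r, hr⟩ := EuclideanDomain.gcd_dvd_left r₀ s₀
  obtain ⟨s, hs⟩ := EuclideanDomain.gcd_dvd_right r₀ s₀
  rw [← hd] at hr hs
  have hd0 : d ≠ 0 := by
    intro h0
    rw [h0, zero_mul] at hr
    exact hr₀ hr
  have hr0 : r ≠ 0 := by rintro rfl; exact hr₀ (by rw [hr, mul_zero])
  have hs0 : s ≠ 0 := by rintro rfl; exact hs₀ (by rw [hs, mul_zero])
  refine ⟨r, s, hr0, hs0, ?_, ?_⟩
  · have h1 := EuclideanDomain.gcd_eq_gcd_ab r₀ s₀
    rw [← hd] at h1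
    generalize EuclideanDomain.gcdA r₀ s₀ = a at h1
    generalize EuclideanDomain.gcdB r₀ s₀ = b at h1
    refine ⟨a, b, ?_⟩
    apply mul_left_cancel₀ hd0
    calc d * (a * r + b * s) = (d * r) * a + (d * s) * b := by ring
      _ = r₀ * a + s₀ * b := by rw [← hr, ← hs]
      _ = d * 1 := by rw [mul_one, ← h1]
  · have hdz : aeval y d ≠ 0 := by
      intro h0
      apply hr₀'
      rw [hr, map_mul, h0, zero_mul]
    have hsz : aeval y s ≠ 0 := by
      intro h0
      apply hs₀'
      rw [hs, map_mul, h0, mul_zero]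
    apply Subtype.ext
    have h1 : ∀ q : K[X], ((aeval (AdjoinSimple.gen K y) q : K⟮y⟯) : F) = aeval y q := by
      intro q
      have := (aeval_algebraMap_apply F (AdjoinSimple.gen K y) q)
      exact this.symm
    have h2 : ((N * aeval (AdjoinSimple.gen K y) s : K⟮y⟯) : F) = (N : F) * aeval y s := by
      rw [← h1]; rfl
    rw [h2, h1, h, hr, hs, map_mul, map_mul]
    field_simp

/-- the product of the roots of a split polynomial not vanishing at `0`. -/
theorem prod_roots_eq {q : K[X]} (hq : q ≠ 0) :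
    q.eval 0 / q.leadingCoeff = (-1) ^ q.natDegree * q.roots.prod := by
  have hs : q.Splits := IsAlgClosed.splits q
  have hl : q.leadingCoeff ≠ 0 := leadingCoeff_ne_zero.mpr hq
  rw [div_eq_iff hl, ← coeff_zero_eq_eval_zero, hs.coeff_zero_eq_leadingCoeff_mul_prod_roots]
  ring

/-- **Weil reciprocity.** -/
theorem weil_reciprocity {f g : F} (hf : f ≠ 0) (hg : g ≠ 0) (h : Disj f (RR.divOf (K := K) g)) :
    evalDiv f (RR.divOf (K := K) g) = evalDiv g (RR.divOf (K := K) f) := by
  classical
  by_cases hconst : ∃ c : K, f = algebraMap K F c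
  · obtain ⟨c, rfl⟩ := hconst
    have hc : c ≠ 0 := by rintro rfl; exact hf (map_zero _)
    have h1 : RR.divOf (K := K) (algebraMap K F c) = 0 := by
      ext P; rw [RR.divOf_apply, RR.ord_algebraMap]; rfl
    rw [evalDiv_algebraMap_of_degree hc (RR.degree_divOf g), h1, evalDiv_zero]
  have hy : Transcendental K f := Fermat.FF.transcendental_of_not_mem_range (by
    rintro ⟨c, hc⟩
    exact hconst ⟨c, hc.symm⟩)
  have hg' : Disj g (RR.divOf (K := K) f) := h.symm
  haveI := functionField_adjoin hy
  haveI : IsFF1 K F := isFF1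
  haveI := Fermat.FF.IsFF1.finiteDimensional_adjoin hy
  set z := AdjoinSimple.gen K f with hz
  have hzf : f = algebraMap K⟮f⟯ F z := rfl
  have hz0 : z ≠ 0 := by
    intro h0
    rw [hzf, h0, map_zero] at hf
    exact hf rfl
  have hN0 : Algebra.norm K⟮f⟯ g ≠ 0 := Algebra.norm_ne_zero_iff.mpr hg
  obtain ⟨r, s, hr, hs, hrs, hrsN⟩ := exists_coprime (Algebra.norm K⟮f⟯ g) hN0
  -- the right hand side
  have hdivf : RR.divOf (K := K) f = (RR.divOf (K := K) z).pullback F := by
    ext w
    rw [RR.divOf_apply]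
    exact (Divisor.pullback_apply_eq_ord (fun v => RR.divOf_apply z v) w).symm
  have hNd : Disj (Algebra.norm K⟮f⟯ g) (RR.divOf (K := K) z) := by
    rw [hdivf] at hg'
    exact disj_norm hg hg'
  obtain ⟨hdeg, hr0, hs0, hval⟩ := evalDiv_gen hy hN0 hNd hr hs hrs hrsN
  have hrhs : evalDiv g (RR.divOf (K := K) f) = r.roots.prod / s.roots.prod := by
    rw [hdivf, evalDiv_pullback hg (by rw [← hdivf]; exact hg'), hval]
    have h1 := prod_roots_eq hr
    have h2 := prod_roots_eq hs
    have h3 : (r.eval 0 / s.eval 0) / (r.leadingCoeff / s.leadingCoeff) =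
        (r.eval 0 / r.leadingCoeff) / (s.eval 0 / s.leadingCoeff) := by
      rw [div_div_div_eq, div_div_div_eq, mul_comm (s.eval 0)]
    rw [h3, h1, h2, hdeg]
    have h4 : ((-1 : K)) ^ s.natDegree ≠ 0 := pow_ne_zero _ (neg_ne_zero.mpr one_ne_zero)
    rw [mul_div_mul_left _ _ h4]
  -- the left hand side
  rw [hrhs]
  set T : Finset K := (RR.divOf (K := K) g).support.image (fun P => ev P f) ∪
    (r.roots.toFinset ∪ s.roots.toFinset) with hT
  have hT0 : ∀ c ∈ T, c ≠ 0 := by
    intro c hc
    rw [hT, Finset.mem_union, Finset.mem_union, Finset.mem_image] at hc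
    rcases hc with ⟨P, hP, rfl⟩ | hc | hc
    · exact ev_ne_zero hf (h P (Finsupp.mem_support_iff.mp hP))
    · rintro rfl
      rw [Multiset.mem_toFinset, mem_roots hr] at hc
      exact hr0 hc
    · rintro rfl
      rw [Multiset.mem_toFinset, mem_roots hs] at hc
      exact hs0 hc
  have h1 : evalDiv f (RR.divOf (K := K) g) = ∏ c ∈ T,
      ∏ P ∈ (RR.divOf (K := K) g).support with ev P f = c, ev P f ^ (RR.divOf (K := K) g) P := by
    rw [evalDiv, Finsupp.prod]
    exact (Finset.prod_fiberwise_of_maps_to (fun P hP =>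
      Finset.mem_union_left _ (Finset.mem_image_of_mem _ hP)) _).symm
  have h2 : ∀ c ∈ T, ∏ P ∈ (RR.divOf (K := K) g).support with ev P f = c,
      ev P f ^ (RR.divOf (K := K) g) P = c ^ ((r.rootMultiplicity c : ℤ) - s.rootMultiplicity c) := by
    intro c hc
    have h3 := sum_ord_eq_rootMultiplicity hy c hg hr hs hrsN
    rw [← h3]
    have h4 : ∏ P ∈ (RR.divOf (K := K) g).support with ev P f = c,
        ev P f ^ (RR.divOf (K := K) g) P =
        ∏ P ∈ (RR.divOf (K := K) g).support with ev P f = c, c ^ (P.ord g) := by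
      refine Finset.prod_congr rfl fun P hP => ?_
      rw [(Finset.mem_filter.mp hP).2, RR.divOf_apply]
    have h5 : ∀ (S : Finset (Place K F)), ∏ P ∈ S, c ^ (P.ord g) = c ^ (∑ P ∈ S, P.ord g) := by
      intro S
      induction S using Finset.induction_on with
      | empty => simp
      | insert P S hP ih => rw [Finset.prod_insert hP, Finset.sum_insert hP, zpow_add₀ (hT0 c hc), ih]
    rw [h4, h5]
    congr 1
    have h6 : (RR.divOf (K := K) g).support.filter (fun P => ev P f = c) ⊆
        (setOf_val_lt_one_finite hy c).toFinset := by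
      intro P hP
      rw [Finset.mem_filter, Finsupp.mem_support_iff] at hP
      rw [Set.Finite.mem_toFinset]
      exact (ev_eq_iff (mem_of_ord_eq (h P hP.1)) c).mp hP.2
    refine Finset.sum_subset h6 fun P hP hP' => ?_
    rw [Set.Finite.mem_toFinset] at hP
    by_contra hne
    apply hP'
    rw [Finset.mem_filter, Finsupp.mem_support_iff, RR.divOf_apply]
    refine ⟨hne, ?_⟩
    have hmem : f ∈ P.toValuationSubring := mem_of_ord_eq (h P (by rw [RR.divOf_apply]; exact hne))
    exact (ev_eq_iff hmem c).mpr hP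
  rw [h1, Finset.prod_congr rfl h2]
  have h3 : ∏ c ∈ T, c ^ ((r.rootMultiplicity c : ℤ) - s.rootMultiplicity c) =
      (∏ c ∈ T, c ^ r.roots.count c) / ∏ c ∈ T, c ^ s.roots.count c := by
    rw [← Finset.prod_div_distrib]
    refine Finset.prod_congr rfl fun c hc => ?_
    rw [zpow_sub₀ (hT0 c hc), zpow_natCast, zpow_natCast, count_roots, count_roots]
  rw [h3, ← Finset.prod_multiset_count_of_subset r.roots T (fun c hc =>
      Finset.mem_union_right _ (Finset.mem_union_left _ hc)),
    ← Finset.prod_multiset_count_of_subset s.roots T (fun c hc =>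
      Finset.mem_union_right _ (Finset.mem_union_right _ hc))]

end Main

end Fermat.Agent.Mazur.Weil
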